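import Fermat.Agent.S05.Core
import Fermat.Agent.S05.Weier

/-!
# S13 (M4): the kernel of reduction, and the action of inertia at `p` modulo it
-/

set_option autoImplicit false

namespace Fermat.Agent.S13

open Fermat.Agent.S05

section NU

variable {K : Type*} [Field K] (A : ValuationSubring K)

lemma nu_iff {x : K} : x ∈ A.nonunits ↔ A.valuation x < 1 := A.mem_nonunits_iff

lemma nu_mem {x : K} (hx : x ∈ A.nonunits) : x ∈ A :=
  (A.valuation_le_one_iff _).1 ((nu_iff A).1 hx).le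

lemma nu_add {x y : K} (hx : x ∈ A.nonunits) (hy : y ∈ A.nonunits) : x + y ∈ A.nonunits := by
  rw [nu_iff] at *
  exact Valuation.map_add_lt _ hx hy

lemma nu_neg {x : K} (hx : x ∈ A.nonunits) : -x ∈ A.nonunits := by
  rw [nu_iff] at *
  rwa [Valuation.map_neg]

lemma nu_sub {x y : K} (hx : x ∈ A.nonunits) (hy : y ∈ A.nonunits) : x - y ∈ A.nonunits := by
  rw [sub_eq_add_neg]
  exact nu_add A hx (nu_neg A hy)

lemma nu_mul_left {x y : K} (hx : x ∈ A) (hy : y ∈ A.nonunits) : x * y ∈ A.nonunits := by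
  rw [nu_iff] at *
  rw [map_mul]
  calc A.valuation x * A.valuation y ≤ 1 * A.valuation y := by
        gcongr
        exact (A.valuation_le_one_iff _).2 hx
    _ < 1 := by rw [one_mul]; exact hy

lemma nu_mul_right {x y : K} (hx : x ∈ A.nonunits) (hy : y ∈ A) : x * y ∈ A.nonunits := by
  rw [mul_comm]
  exact nu_mul_left A hy hx

lemma nu_pow {x : K} (hx : x ∈ A.nonunits) {n : ℕ} (hn : n ≠ 0) : x ^ n ∈ A.nonunits := by
  rw [nu_iff] at *
  rw [map_pow]
  exact pow_lt_one₀ zero_le hx hn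

lemma nu_inv {x : K} (hx : x ∉ A) : x⁻¹ ∈ A.nonunits := by
  rw [nu_iff, map_inv₀]
  rw [← A.valuation_le_one_iff, not_le] at hx
  exact inv_lt_one_of_one_lt₀ hx

lemma nu_one_not : (1 : K) ∉ A.nonunits := by
  rw [nu_iff, map_one]
  exact lt_irrefl _

/-- `1 - y` is not a non-unit -/
lemma nu_one_sub {y : K} (hy : y ∈ A.nonunits) : 1 - y ∉ A.nonunits := by
  intro h
  have := nu_add A h hy
  rw [sub_add_cancel] at this
  exact nu_one_not A this

lemma nu_of_pow {x : K} {n : ℕ} (h : x ^ n ∈ A.nonunits) : x ∈ A.nonunits := by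
  rw [nu_iff] at *
  rw [map_pow] at h
  by_contra hcon
  rw [not_lt] at hcon
  exact absurd h (not_lt.2 (one_le_pow₀ hcon))

end NU

variable {G K : Type*} [AddCommGroup G] [Field K] {ξ η : G → K} {a b : K}

/-- the chord formula -/
def Chord (ξ η : G → K) (a : K) : Prop :=
  ∀ P Q, P ≠ 0 → Q ≠ 0 → P + Q ≠ 0 → P - Q ≠ 0 →
    4 * (ξ P - ξ Q) ^ 2 * ξ (P - Q) =
      (η P + η Q) ^ 2 - 4 * (a + ξ P + ξ Q) * (ξ P - ξ Q) ^ 2

theorem formal_dbl (A : ValuationSubring K) (h : KLine ξ η a b) (ha : a ∈ A) (hb : b ∈ A)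
    (P : G) (hP : P ≠ 0) (hxP : ξ P ∉ A) (hPP : P + P ≠ 0) : ξ (P + P) ∉ A := by
  intro hz
  have hx0 : ξ P ≠ 0 := fun h0 => hxP (h0 ▸ A.zero_mem)
  have hu := nu_inv A hxP
  have huA := nu_mem A hu
  have hd := h.dbl P hP hPP
  set x := ξ P
  set u := x⁻¹ with hudef
  set z := ξ (P + P)
  have h4 : (4 : K) ∈ A := by
    have : (4 : K) = ((4 : ℤ) : K) := by norm_num
    rw [this]
    exact core_int_mem A 4
  have e : (1 - b * u ^ 2) ^ 2 = u * (4 * (1 + a * u + b * u ^ 2) * z) := by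
    have hxu : x * u = 1 := mul_inv_cancel₀ hx0
    have : (1 - b * u ^ 2) ^ 2 = u ^ 4 * (x ^ 2 - b) ^ 2 +
        (1 - x * u) * ((1 + x * u) * (1 + (x * u) ^ 2 - 2 * b * u ^ 2)) := by ring
    rw [this, ← hd, hxu]
    have h3 : u ^ 4 * (4 * (x * (x ^ 2 + a * x + b)) * z) =
        u * (4 * ((x * u) ^ 3 + a * u * (x * u) ^ 2 + b * u ^ 2 * (x * u)) * z) := by ring
    rw [h3, hxu]
    ring
  have h1 : u * (4 * (1 + a * u + b * u ^ 2) * z) ∈ A.nonunits :=
    nu_mul_right A hu (mul_mem (mul_mem h4 (add_mem (add_mem (one_mem A) (mul_mem ha huA))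
      (mul_mem hb (pow_mem huA 2)))) hz)
  rw [← e] at h1
  exact nu_one_sub A (nu_mul_left A hb (nu_pow A hu two_ne_zero)) (nu_of_pow A h1)

theorem formal_add (A : ValuationSubring K) (h : KLine ξ η a b) (ha : a ∈ A) (hb : b ∈ A)
    (P Q : G) (hP : P ≠ 0) (hQ : Q ≠ 0) (hxP : ξ P ∉ A) (hxQ : ξ Q ∉ A)
    (hPQ : P + Q ≠ 0) : ξ (P + Q) ∉ A := by
  by_cases hPQ' : P - Q = 0
  · have : P = Q := sub_eq_zero.1 hPQ'
    subst this
    exact formal_dbl A h ha hb P hP hxP hPQ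
  intro hz
  have hx0 : ξ P ≠ 0 := fun h0 => hxP (h0 ▸ A.zero_mem)
  have hy0 : ξ Q ≠ 0 := fun h0 => hxQ (h0 ▸ A.zero_mem)
  have hu := nu_inv A hxP
  have hv := nu_inv A hxQ
  have huA := nu_mem A hu
  have hvA := nu_mem A hv
  have hs := h.sum P Q hP hQ hPQ hPQ'
  have hp := h.prod P Q hP hQ hPQ hPQ'
  set x := ξ P
  set y := ξ Q
  set u := x⁻¹ with hudef
  set v := y⁻¹ with hvdef
  set z := ξ (P + Q)
  set w := ξ (P - Q)
  have hxu : x * u = 1 := mul_inv_cancel₀ hx0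
  have hyv : y * v = 1 := mul_inv_cancel₀ hy0
  have h2 : (2 : K) ∈ A := by
    have : (2 : K) = ((2 : ℤ) : K) := by norm_num
    rw [this]
    exact core_int_mem A 2
  have hD : (v - u) ^ 2 ∈ A.nonunits := nu_pow A (nu_sub A hv hu) two_ne_zero
  have eD : (v - u) ^ 2 = u ^ 2 * v ^ 2 * (x - y) ^ 2 := by
    have : u ^ 2 * v ^ 2 * (x - y) ^ 2 = ((x * u) * v - (y * v) * u) ^ 2 := by ring
    rw [this, hxu, hyv]
    ring
  -- `E = D w`
  have hE : (v - u) ^ 2 * w = 2 * ((u + v) * (1 + b * (u * v)) + 2 * a * (u * v)) -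
      (v - u) ^ 2 * z := by
    have h1 : (v - u) ^ 2 * (z + w) = 2 * ((u + v) * (1 + b * (u * v)) + 2 * a * (u * v)) := by
      rw [eD, mul_assoc, hs]
      have : u ^ 2 * v ^ 2 * (2 * ((x + y) * (x * y + b) + 2 * a * (x * y))) =
          2 * (((x * u) * v + (y * v) * u) * ((x * u) * (y * v) + b * (u * v)) +
            2 * a * (u * v) * ((x * u) * (y * v))) := by ring
      rw [this, hxu, hyv]
      ring
    linear_combination h1
  have huv : u * v ∈ A.nonunits := nu_mul_right A hu hvA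
  have hEm : (v - u) ^ 2 * w ∈ A.nonunits := by
    rw [hE]
    refine nu_sub A (nu_mul_left A h2 (nu_add A (nu_mul_right A (nu_add A hu hv)
      (add_mem (one_mem A) (mul_mem hb (nu_mem A huv)))) (nu_mul_left A (mul_mem h2 ha) huv)))
      (nu_mul_right A hD hz)
  have hzE : z * ((v - u) ^ 2 * w) = (1 - b * (u * v)) ^ 2 := by
    have h1 : z * ((v - u) ^ 2 * w) = u ^ 2 * v ^ 2 * ((x - y) ^ 2 * (z * w)) := by
      rw [eD]; ring
    rw [h1, hp]
    have : u ^ 2 * v ^ 2 * (x * y - b) ^ 2 = ((x * u) * (y * v) - b * (u * v)) ^ 2 := by ring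
    rw [this, hxu, hyv]
    ring
  have h3 := nu_mul_left A hz hEm
  rw [hzE] at h3
  exact nu_one_sub A (nu_mul_left A hb huv) (nu_of_pow A h3)

/-- the kernel of reduction -/
def Formal (A : ValuationSubring K) (ξ : G → K) (P : G) : Prop := P = 0 ∨ ξ P ∉ A

lemma Formal.zero (A : ValuationSubring K) : Formal A ξ (0 : G) := Or.inl rfl

lemma Formal.add {A : ValuationSubring K} (h : KLine ξ η a b) (ha : a ∈ A) (hb : b ∈ A) {P Q : G}
    (hP : Formal A ξ P) (hQ : Formal A ξ Q) : Formal A ξ (P + Q) := by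
  rcases hP with rfl | hP
  · rwa [zero_add]
  rcases hQ with rfl | hQ
  · rw [add_zero]; exact Or.inr hP
  by_cases h0 : P + Q = 0
  · exact Or.inl h0
  by_cases hP0 : P = 0
  · rw [hP0, zero_add]; exact Or.inr hQ
  by_cases hQ0 : Q = 0
  · rw [hQ0, add_zero]; exact Or.inr hP
  exact Or.inr (formal_add A h ha hb P Q hP0 hQ0 hP hQ h0)

lemma Formal.neg {A : ValuationSubring K} (h : KLine ξ η a b) {P : G}
    (hP : Formal A ξ P) : Formal A ξ (-P) := by
  rcases hP with rfl | hP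
  · rw [neg_zero]; exact Or.inl rfl
  · right; rwa [h.neg]

lemma Formal.sub {A : ValuationSubring K} (h : KLine ξ η a b) (ha : a ∈ A) (hb : b ∈ A) {P Q : G}
    (hP : Formal A ξ P) (hQ : Formal A ξ Q) : Formal A ξ (P - Q) := by
  rw [sub_eq_add_neg]
  exact hP.add h ha hb (hQ.neg h)

lemma Formal.nsmul {A : ValuationSubring K} (h : KLine ξ η a b) (ha : a ∈ A) (hb : b ∈ A) {P : G}
    (hP : Formal A ξ P) (k : ℕ) : Formal A ξ (k • P) := by
  induction k with
  | zero => rw [zero_nsmul]; exact Or.inl rfl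
  | succ k ih => rw [succ_nsmul]; exact ih.add h ha hb hP

/-- an "inertia" endomorphism reflects integrality -/
lemma sigma_not_mem (A : ValuationSubring K) (σ : K →+* K)
    (hσ : ∀ x ∈ A, σ x - x ∈ A.nonunits) {x : K} (hx : x ∉ A) : σ x ∉ A := by
  intro h
  have hu := nu_inv A hx
  have h1 : σ x⁻¹ ∈ A.nonunits := by
    have := nu_add A (hσ _ (nu_mem A hu)) hu
    rwa [sub_add_cancel] at this
  have hx0 : x ≠ 0 := fun h0 => hx (h0 ▸ A.zero_mem)
  have h2 : σ x * σ x⁻¹ = 1 := by rw [← map_mul, mul_inv_cancel₀ hx0, map_one]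
  have h3 := nu_mul_left A h h1
  rw [h2] at h3
  exact nu_one_not A h3

lemma Formal.map {A : ValuationSubring K} (σ : K →+* K) (s : G →+ G)
    (hσ : ∀ x ∈ A, σ x - x ∈ A.nonunits) (hsξ : ∀ Q, Q ≠ 0 → ξ (s Q) = σ (ξ Q)) {P : G}
    (hP : Formal A ξ P) : Formal A ξ (s P) := by
  by_cases hP0 : P = 0
  · rw [hP0, map_zero]; exact Or.inl rfl
  rcases hP with rfl | hP
  · exact absurd rfl hP0
  right
  rw [hsξ P hP0]
  exact sigma_not_mem A σ hσ hP

/-- restriction of a Kummer line to a subgroup -/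
lemma kline_restrict (h : KLine ξ η a b) (S : AddSubgroup G) :
    KLine (fun Q : S => ξ Q) (fun Q : S => η Q) a b where
  neg P := h.neg P
  inj P Q hP hQ hPQ := by
    rcases h.inj P Q (fun h0 => hP (Subtype.ext h0)) (fun h0 => hQ (Subtype.ext h0)) hPQ with h1 | h1
    · exact Or.inl (Subtype.ext h1)
    · exact Or.inr (Subtype.ext h1)
  sum P Q hP hQ h1 h2 := h.sum P Q (fun h0 => hP (Subtype.ext h0)) (fun h0 => hQ (Subtype.ext h0))
    (fun h0 => h1 (Subtype.ext h0)) (fun h0 => h2 (Subtype.ext h0))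
  prod P Q hP hQ h1 h2 := h.prod P Q (fun h0 => hP (Subtype.ext h0))
    (fun h0 => hQ (Subtype.ext h0)) (fun h0 => h1 (Subtype.ext h0)) (fun h0 => h2 (Subtype.ext h0))
  dbl P hP h1 := h.dbl P (fun h0 => hP (Subtype.ext h0)) (fun h0 => h1 (Subtype.ext h0))
  eta_sq P hP := h.eta_sq P (fun h0 => hP (Subtype.ext h0))
  eta_neg P := h.eta_neg P

/-- the inertia step: `s P - P` lies in the kernel of reduction -/
theorem formal_of_val (A : ValuationSubring K) (h : KLine ξ η a b) (hch : Chord ξ η a) (ha : a ∈ A)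
    (h2 : A.valuation 2 = 1) (σ : K →+* K) (s : G →+ G)
    (hσ : ∀ x ∈ A, σ x - x ∈ A.nonunits)
    (hs0 : ∀ Q, s Q = 0 → Q = 0)
    (hsξ : ∀ Q, Q ≠ 0 → ξ (s Q) = σ (ξ Q)) (hsη : ∀ Q, Q ≠ 0 → η (s Q) = σ (η Q))
    (P : G) (hP : P ≠ 0)
    (d : K) (hd0 : d ≠ 0) (hσd : σ d = d) (hd1 : d ∈ A)
    (hξ : A.valuation (ξ P) = A.valuation d) (hη : A.valuation (η P) = A.valuation d) :
    Formal A ξ (s P - P) := by
  have hD : 0 < A.valuation d := (Valuation.pos_iff _).2 hd0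
  have hD1 : A.valuation d ≤ 1 := (A.valuation_le_one_iff _).2 hd1
  have ha1 : A.valuation a ≤ 1 := (A.valuation_le_one_iff _).2 ha
  have h4 : A.valuation 4 = 1 := eta_val_four A h2
  by_cases hne : s P - P = 0
  · exact Or.inl hne
  right
  intro hz
  have hsP : s P ≠ 0 := fun h0 => hP (hs0 P h0)
  have hε : A.valuation (σ (η P) - η P) < A.valuation d :=
    inertia_sub_lt A σ hσ d hd0 hσd (η P) hη
  have hne' : s P + P ≠ 0 := by
    intro h0
    have h1 : s P = -P := eq_neg_of_add_eq_zero_left h0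
    have h3 : σ (η P) = -η P := by rw [← hsη P hP, h1, h.eta_neg]
    have h6 : σ (η P) - η P = -(2 * η P) := by rw [h3]; ring
    rw [h6, Valuation.map_neg, map_mul, h2, one_mul, hη] at hε
    exact lt_irrefl _ hε
  have hc := hch (s P) P hsP hP hne' hne
  rw [hsξ P hP, hsη P hP] at hc
  set x := ξ P with hx
  set δ := σ x - x with hδ
  set z := ξ (s P - P)
  have hδlt : A.valuation δ < A.valuation d := inertia_sub_lt A σ hσ d hd0 hσd x hξ
  have hx1 : A.valuation x ≤ 1 := hξ.le.trans hD1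
  have hx' : A.valuation (σ x) ≤ 1 := by
    have : σ x = x + δ := by rw [hδ]; ring
    rw [this]
    exact (A.valuation.map_add _ _).trans (max_le hx1 (hδlt.le.trans hD1))
  have hδ2 : A.valuation δ ^ 2 < A.valuation d ^ 2 := pow_lt_pow_left₀ hδlt zero_le two_ne_zero
  -- the left hand side is small
  have hL : A.valuation (4 * δ ^ 2 * z) < A.valuation d ^ 2 := by
    rw [map_mul, map_mul, h4, one_mul, map_pow]
    calc A.valuation δ ^ 2 * A.valuation z ≤ A.valuation δ ^ 2 * 1 := by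
          gcongr
          exact (A.valuation_le_one_iff _).2 hz
      _ = A.valuation δ ^ 2 := mul_one _
      _ < A.valuation d ^ 2 := hδ2
  -- the right hand side is not
  have hη2 : A.valuation (σ (η P) + η P) = A.valuation d := by
    have e : σ (η P) + η P = 2 * η P + (σ (η P) - η P) := by ring
    have h5 : A.valuation (2 * η P) = A.valuation d := by rw [map_mul, h2, one_mul, hη]
    rw [e, Valuation.map_add_eq_of_lt_left _ (by rw [h5]; exact hε), h5]
  have hsmall : A.valuation (4 * (a + σ x + x) * δ ^ 2) < A.valuation ((σ (η P) + η P) ^ 2) := by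
    rw [map_mul, map_mul, h4, one_mul, map_pow, map_pow, hη2]
    calc A.valuation (a + σ x + x) * A.valuation δ ^ 2 ≤ 1 * A.valuation δ ^ 2 := by
          gcongr
          exact (A.valuation.map_add _ _).trans (max_le ((A.valuation.map_add _ _).trans
            (max_le ha1 hx')) hx1)
      _ = A.valuation δ ^ 2 := one_mul _
      _ < A.valuation d ^ 2 := hδ2
  rw [hc, Valuation.map_sub_eq_of_lt_left _ hsmall, map_pow, hη2] at hL
  exact lt_irrefl _ hL

lemma Formal.zsmul {A : ValuationSubring K} (h : KLine ξ η a b) (ha : a ∈ A) (hb : b ∈ A) {P : G}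
    (hP : Formal A ξ P) (k : ℤ) : Formal A ξ (k • P) := by
  obtain ⟨n, rfl | rfl⟩ := k.eq_nat_or_neg
  · rw [natCast_zsmul]; exact hP.nsmul h ha hb n
  · rw [neg_zsmul, natCast_zsmul]; exact (hP.nsmul h ha hb n).neg h

/-- either `P` is in the kernel of reduction or all its nonzero multiples are integral -/
lemma formal_or_integral (A : ValuationSubring K) (h : KLine ξ η a b) (ha : a ∈ A) (hb : b ∈ A)
    {p : ℕ} (hp : p.Prime) (P : G) (hpP : p • P = 0) :
    Formal A ξ P ∨ ∀ Q : AddSubgroup.zmultiples P, Q ≠ 0 → ξ (Q : G) ∈ A := by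
  by_cases hall : ∀ Q : AddSubgroup.zmultiples P, Q ≠ 0 → ξ (Q : G) ∈ A
  · exact Or.inr hall
  left
  push Not at hall
  obtain ⟨⟨Q, hQ⟩, hQ0, hQA⟩ := hall
  obtain ⟨n, rfl⟩ := AddSubgroup.mem_zmultiples_iff.1 hQ
  have hn : ¬ (p : ℤ) ∣ n := by
    rintro ⟨c, rfl⟩
    apply hQ0
    apply Subtype.ext
    change ((p : ℤ) * c) • P = 0
    rw [mul_comm, mul_smul, natCast_zsmul, hpP, smul_zero]
  have hcop : IsCoprime (p : ℤ) n := (Nat.prime_iff_prime_int.1 hp).coprime_iff_not_dvd.2 hn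
  obtain ⟨u, w, huw⟩ := hcop
  have hP : P = w • (n • P) := by
    have h1 : (u * (p : ℤ) + w * n) • P = P := by rw [huw, one_smul]
    rw [add_smul, mul_smul, mul_smul, natCast_zsmul, hpP, smul_zero, zero_add] at h1
    exact h1.symm
  rw [hP]
  exact Formal.zsmul h ha hb (Or.inr hQA) w

section

variable (A : ValuationSubring K) (h : KLine ξ η a b) (hch : Chord ξ η a) {p : ℕ} (hp : p.Prime)
  (hp2 : p ≠ 2) (h2 : A.valuation 2 = 1)
  (σ : K →+* K) (s : G →+ G) (hσ : ∀ x ∈ A, σ x - x ∈ A.nonunits) (hs0 : ∀ Q, s Q = 0 → Q = 0)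
  (hsξ : ∀ Q, Q ≠ 0 → ξ (s Q) = σ (ξ Q)) (hsη : ∀ Q, Q ≠ 0 → η (s Q) = σ (η Q))
include h hch hp hp2 h2 hσ hs0 hsξ hsη

theorem p_core_mult (ha : A.valuation a = 1) (hb : A.valuation b < 1) (hb0 : b ≠ 0)
    (d : K) (hd0 : d ≠ 0) (hσd : σ d = d) (hd1 : d ∈ A)
    (hdb : A.valuation d ^ p = A.valuation b ^ 2) (P : G) (hpP : p • P = 0) :
    Formal A ξ (s P - P) := by
  have haA : a ∈ A := (A.valuation_le_one_iff _).1 ha.le
  have hbA : b ∈ A := (A.valuation_le_one_iff _).1 hb.le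
  by_cases hP : P = 0
  · rw [hP, map_zero, sub_zero]; exact Or.inl rfl
  rcases formal_or_integral A h haA hbA hp P hpP with hF | hint
  · exact (hF.map σ s hσ hsξ).sub h haA hbA hF
  have hk := kline_restrict h (AddSubgroup.zmultiples P)
  have hint' : ∀ Q : AddSubgroup.zmultiples P, Q ≠ 0 → p • Q = 0 → ξ (Q : G) ∈ A :=
    fun Q hQ _ => hint Q hQ
  obtain ⟨P₀, k, hk', hP₀, hpP₀, hcase⟩ := walk A hk ha hb hb0 h2 hp hp2 hint'
    ⟨P, AddSubgroup.mem_zmultiples P⟩ (fun h0 => hP (congrArg Subtype.val h0)) (Subtype.ext hpP)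
  have hP₀' : (P₀ : G) ≠ 0 := fun h0 => hP₀ (Subtype.ext h0)
  have hfix : Formal A ξ (s P₀ - P₀) := by
    rcases hcase with h1 | ⟨h1, h3, h4⟩
    · have h5 := eta_unit_mult A hk ha hb h2 hp hp2 hint' P₀ hP₀ hpP₀ h1
      exact formal_of_val A h hch haA h2 σ s hσ hs0 hsξ hsη P₀ hP₀' 1 one_ne_zero (map_one σ)
        A.one_mem (by rw [h1, map_one]) (by rw [h5, map_one])
    · have h5 : A.valuation (ξ (P₀ : G)) = A.valuation d :=
        (pow_left_inj₀ zero_le zero_le hp.ne_zero).1 (h1.trans hdb.symm)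
      have h6 := eta_val_node A hk ha h2 P₀ hP₀ h4 h3
      exact formal_of_val A h hch haA h2 σ s hσ hs0 hsξ hsη P₀ hP₀' d hd0 hσd hd1 h5 (h6.trans h5)
  have hPk : P = k • (P₀ : G) := congrArg Subtype.val hk'
  have e : s P - P = k • (s P₀ - P₀) := by
    rw [smul_sub, ← map_nsmul, ← hPk]
  rw [e]
  exact hfix.nsmul h haA hbA k

theorem p_core_good (ha : a ∈ A) (hb : A.valuation b = 1) (hd : A.valuation (a ^ 2 - 4 * b) = 1)
    (P : G) (hpP : p • P = 0) : Formal A ξ (s P - P) := by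
  have hbA : b ∈ A := (A.valuation_le_one_iff _).1 hb.le
  by_cases hP : P = 0
  · rw [hP, map_zero, sub_zero]; exact Or.inl rfl
  rcases formal_or_integral A h ha hbA hp P hpP with hF | hint
  · exact (hF.map σ s hσ hsξ).sub h ha hbA hF
  have hk := kline_restrict h (AddSubgroup.zmultiples P)
  have hint' : ∀ Q : AddSubgroup.zmultiples P, Q ≠ 0 → p • Q = 0 → ξ (Q : G) ∈ A :=
    fun Q hQ _ => hint Q hQ
  obtain ⟨h1, h5⟩ := eta_unit_good A hk ha hb hd h2 hp hp2 hint'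
    ⟨P, AddSubgroup.mem_zmultiples P⟩ (fun h0 => hP (congrArg Subtype.val h0)) (Subtype.ext hpP)
  exact formal_of_val A h hch ha h2 σ s hσ hs0 hsξ hsη P hP 1 one_ne_zero (map_one σ)
    A.one_mem (by rw [map_one]; exact h1) (by rw [map_one]; exact h5)

end

end Fermat.Agent.S13
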