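import Fermat.Agent.S05.Frey
import Fermat.Agent.S13.AtP

/-!
# S13 (M4): the Frey curve at `p`
-/

set_option autoImplicit false

namespace Fermat.Agent.S13

open Fermat.Agent.S05
open WeierstrassCurve WeierstrassCurve.Affine WeierstrassCurve.Affine.Point

local notation "Kb" => AlgebraicClosure ℚ

section A

variable {K : Type*} [Field K] [DecidableEq K]

theorem chord_weierstrass (W : WeierstrassCurve.Affine K) (e a : K)
    (h1 : W.b₂ + 12 * e = 4 * a) : Chord (xi W e) (eta W) a := by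
  intro P Q hP hQ hPQ hPQ'
  rcases P with _ | ⟨x₁, y₁, hn₁⟩
  · exact absurd rfl hP
  rcases Q with _ | ⟨x₂, y₂, hn₂⟩
  · exact absurd rfl hQ
  have hx : x₁ ≠ x₂ := by
    intro hx
    rcases (Point.X_eq_iff (h₁ := hn₁) (h₂ := hn₂)).mp hx with h | h
    · exact hPQ' (by rw [h, sub_self])
    · exact hPQ (by rw [h, neg_add_cancel])
  have hd : x₁ - e - (x₂ - e) = x₁ - x₂ := by ring
  rw [show (Point.some x₁ y₁ hn₁ - Point.some x₂ y₂ hn₂) = Point.some x₁ y₁ hn₁ +
        Point.some x₂ (W.negY x₂ y₂) ((Affine.nonsingular_neg ..).mpr hn₂) from by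
          rw [sub_eq_add_neg, Point.neg_some], Point.add_of_X_ne hx]
  simp only [xi, eta]
  rw [hd, weier_add W e a h1 hx, Affine.negY]
  ring

omit [DecidableEq K] in
lemma xi_shift (W : WeierstrassCurve.Affine K) (e : K) (R : W.Point) (hR : R ≠ 0) :
    xi W e R = xi W 0 R - e := by
  rcases R with _ | ⟨x, y, hn⟩
  · exact absurd rfl hR
  · simp [xi]

lemma formal_shift (A : ValuationSubring K) (W : WeierstrassCurve.Affine K) (e : K) (he : e ∈ A)
    (R : W.Point) (h : Formal A (xi W e) R) : Formal A (xi W 0) R := by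
  by_cases hR : R = 0
  · exact Or.inl hR
  rcases h with h | h
  · exact Or.inl h
  right
  intro h1
  apply h
  rw [xi_shift W e R hR]
  exact sub_mem h1 he

end A

/-- the Kummer line of the Frey curve with respect to the `2`-torsion point `(0,0)` -/
theorem frey_kline0 (P : FreyPackage) :
    KLine (xi (P.freyCurve⁄Kb) 0) (eta (P.freyCurve⁄Kb))
      ((((P.b ^ P.p : ℤ) : Kb) - ((P.a ^ P.p : ℤ) : Kb)) / 4)
      (-(((P.a ^ P.p : ℤ) : Kb) * ((P.b ^ P.p : ℤ) : Kb)) / 16) :=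
  kline_weierstrass _ two_ne_zero 0 _ _ (by rw [frey_b₂ P]; ring)
    (by rw [frey_b₂ P, frey_b₄ P]; ring) (by rw [frey_b₂ P, frey_b₄ P, frey_b₆ P]; ring)

theorem frey_p_formal (P : FreyPackage)
    (A : ValuationSubring Kb) (hA : (P.p : Kb) ∈ A.nonunits) (σ : Kb ≃ₐ[ℚ] Kb)
    (hσ : σ ∈ A.inertiaSubgroupIn ℚ) (Q : (P.freyCurve⁄Kb).Point) (hQ : P.p • Q = 0) :
    Formal A (xi (P.freyCurve⁄Kb) 0) (freyS P.freyCurve σ Q - Q) := by
  have hp : P.p.Prime := P.pp
  have hq := hp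
  have hp2 : P.p ≠ 2 := by have := P.hp5; omega
  have hp0 : P.p ≠ 0 := hp.ne_zero
  have hqz : Prime (P.p : ℤ) := Nat.prime_iff_prime_int.1 hp
  have hin := frey_inertia A σ hσ
  have h2K : (2 : Kb) ≠ 0 := two_ne_zero
  have hv2 := core_val_two A hp hp2 hA
  have hv4 : A.valuation (4 : Kb) = 1 := by
    have : (4 : Kb) = 2 * 2 := by norm_num
    rw [this, map_mul, hv2, one_mul]
  have hv16 : A.valuation (16 : Kb) = 1 := by
    have : (16 : Kb) = 4 * 4 := by norm_num
    rw [this, map_mul, hv4, one_mul]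
  set A0 : Kb := ((P.a ^ P.p : ℤ) : Kb) with hA0
  set B0 : Kb := ((P.b ^ P.p : ℤ) : Kb) with hB0
  set C0 : Kb := ((P.c ^ P.p : ℤ) : Kb) with hC0
  have hABC : A0 + B0 = C0 := by
    rw [hA0, hB0, hC0]
    exact_mod_cast congrArg (Int.cast : ℤ → Kb) P.hFLT
  have hb2 := frey_b₂ P
  have hb4 := frey_b₄ P
  have hb6 := frey_b₆ P
  rw [← hA0, ← hB0] at hb2 hb4
  have hσint : ∀ n : ℤ, (σ : Kb →+* Kb) (n : Kb) = n := fun n => map_intCast _ n
  have hnab : ¬ ((P.p : ℤ) ∣ P.a ∧ (P.p : ℤ) ∣ P.b) := by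
    rintro ⟨h1, h2⟩
    have := dvd_gcd h1 h2
    rw [P.hgcdab] at this
    exact hqz.not_dvd_one this
  have hnac : ¬ ((P.p : ℤ) ∣ P.a ∧ (P.p : ℤ) ∣ P.c) := by
    rintro ⟨h1, h2⟩
    have := dvd_gcd h1 h2
    rw [P.hgcdac] at this
    exact hqz.not_dvd_one this
  by_cases hab : (P.p : ℤ) ∣ P.a * P.b
  · -- multiplicative reduction, node at `0`
    have hk : KLine (xi (P.freyCurve⁄Kb) 0) (eta (P.freyCurve⁄Kb)) ((B0 - A0) / 4)
        (-(A0 * B0) / 16) := frey_kline0 P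
    have hch : Chord (xi (P.freyCurve⁄Kb) 0) (eta (P.freyCurve⁄Kb)) ((B0 - A0) / 4) :=
      chord_weierstrass _ 0 _ (by rw [hb2]; ring)
    have hunit : ¬ (P.p : ℤ) ∣ P.b ^ P.p - P.a ^ P.p := by
      intro h
      rcases hqz.dvd_or_dvd hab with h1 | h1
      · have h3 : (P.p : ℤ) ∣ P.b ^ P.p := (dvd_sub_left (dvd_pow h1 hp0)).1 h
        exact hnab ⟨h1, hqz.dvd_of_dvd_pow h3⟩
      · have h3 : (P.p : ℤ) ∣ P.a ^ P.p := (dvd_sub_right (dvd_pow h1 hp0)).1 h
        exact hnab ⟨hqz.dvd_of_dvd_pow h3, h1⟩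
    have hva : A.valuation ((B0 - A0) / 4) = 1 := by
      rw [map_div₀, hv4, div_one]
      have := core_val_int_eq A hq hA hunit
      rw [hB0, hA0]
      exact_mod_cast this
    have hAB : A0 * B0 = (((P.a * P.b) ^ P.p : ℤ) : Kb) := by
      rw [hA0, hB0]; push_cast; ring
    have hvb' : A.valuation (-(A0 * B0) / 16) = A.valuation (((P.a * P.b : ℤ) : Kb)) ^ P.p := by
      rw [map_div₀, hv16, div_one, Valuation.map_neg, hAB]
      push_cast
      rw [map_pow]
    have hvab : A.valuation (((P.a * P.b : ℤ) : Kb)) < 1 := core_val_int_lt A hA hab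
    have hvb : A.valuation (-(A0 * B0) / 16) < 1 := by
      rw [hvb']; exact pow_lt_one₀ zero_le hvab hp0
    have hab0 : (((P.a * P.b : ℤ) : Kb)) ≠ 0 := by
      exact_mod_cast mul_ne_zero P.ha0 P.hb0
    have hb0 : -(A0 * B0) / 16 ≠ 0 := by
      rw [hAB]
      push_cast
      push_cast at hab0
      exact div_ne_zero (neg_ne_zero.2 (pow_ne_zero _ hab0)) (by norm_num)
    exact p_core_mult A hk hch hp hp2 hv2 (σ : Kb →+* Kb) (freyS P.freyCurve σ) hin
      (freyS_eq_zero _ σ) (freyS_xi _ σ 0 (map_zero σ)) (freyS_eta _ σ) hva hvb hb0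
      (((P.a * P.b) ^ 2 : ℤ) : Kb) (by push_cast; push_cast at hab0; exact pow_ne_zero _ hab0)
      (hσint _) (core_int_mem A _)
      (by rw [hvb']; push_cast; rw [map_pow, ← pow_mul, ← pow_mul, mul_comm 2 P.p]) Q hQ
  by_cases hc : (P.p : ℤ) ∣ P.c
  · -- multiplicative reduction, node at `A0 / 4`
    have hk : KLine (xi (P.freyCurve⁄Kb) (A0 / 4)) (eta (P.freyCurve⁄Kb)) ((A0 + C0) / 4)
        (A0 * C0 / 16) :=
      kline_weierstrass _ h2K (A0 / 4) _ _ (by rw [hb2, ← hABC]; ring)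
        (by rw [hb2, hb4, ← hABC]; ring) (by rw [hb2, hb4, hb6]; ring)
    have hch : Chord (xi (P.freyCurve⁄Kb) (A0 / 4)) (eta (P.freyCurve⁄Kb)) ((A0 + C0) / 4) :=
      chord_weierstrass _ (A0 / 4) _ (by rw [hb2, ← hABC]; ring)
    have hunit : ¬ (P.p : ℤ) ∣ P.a ^ P.p + P.c ^ P.p := by
      intro h
      have h3 : (P.p : ℤ) ∣ P.a ^ P.p := (dvd_add_left (dvd_pow hc hp0)).1 h
      exact hnac ⟨hqz.dvd_of_dvd_pow h3, hc⟩
    have hva : A.valuation ((A0 + C0) / 4) = 1 := by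
      rw [map_div₀, hv4, div_one]
      have := core_val_int_eq A hq hA hunit
      rw [hC0, hA0]
      exact_mod_cast this
    have hAC : A0 * C0 = (((P.a * P.c) ^ P.p : ℤ) : Kb) := by
      rw [hA0, hC0]; push_cast; ring
    have hvb' : A.valuation (A0 * C0 / 16) = A.valuation (((P.a * P.c : ℤ) : Kb)) ^ P.p := by
      rw [map_div₀, hv16, div_one, hAC]
      push_cast
      rw [map_pow]
    have hvac : A.valuation (((P.a * P.c : ℤ) : Kb)) < 1 :=
      core_val_int_lt A hA (hc.mul_left _)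
    have hvb : A.valuation (A0 * C0 / 16) < 1 := by
      rw [hvb']; exact pow_lt_one₀ zero_le hvac hp0
    have hac0 : (((P.a * P.c : ℤ) : Kb)) ≠ 0 := by
      exact_mod_cast mul_ne_zero P.ha0 P.hc0
    have hb0 : A0 * C0 / 16 ≠ 0 := by
      rw [hAC]
      push_cast
      push_cast at hac0
      exact div_ne_zero (pow_ne_zero _ hac0) (by norm_num)
    have he : σ (A0 / 4) = A0 / 4 := by
      rw [map_div₀, map_ofNat, hA0, map_intCast]
    have heA : A0 / 4 ∈ A := by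
      rw [← A.valuation_le_one_iff, map_div₀, hv4, div_one]
      exact core_val_int_le A _
    exact formal_shift A _ _ heA _
      (p_core_mult A hk hch hp hp2 hv2 (σ : Kb →+* Kb) (freyS P.freyCurve σ) hin
      (freyS_eq_zero _ σ) (freyS_xi _ σ _ he) (freyS_eta _ σ) hva hvb hb0
      (((P.a * P.c) ^ 2 : ℤ) : Kb) (by push_cast; push_cast at hac0; exact pow_ne_zero _ hac0)
      (hσint _) (core_int_mem A _)
      (by rw [hvb']; push_cast; rw [map_pow, ← pow_mul, ← pow_mul, mul_comm 2 P.p]) Q hQ)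
  · -- good reduction
    have hk : KLine (xi (P.freyCurve⁄Kb) 0) (eta (P.freyCurve⁄Kb)) ((B0 - A0) / 4)
        (-(A0 * B0) / 16) := frey_kline0 P
    have hch : Chord (xi (P.freyCurve⁄Kb) 0) (eta (P.freyCurve⁄Kb)) ((B0 - A0) / 4) :=
      chord_weierstrass _ 0 _ (by rw [hb2]; ring)
    have haA : (B0 - A0) / 4 ∈ A := by
      rw [← A.valuation_le_one_iff, map_div₀, hv4, div_one]
      have := core_val_int_le A (P.b ^ P.p - P.a ^ P.p)
      rw [hB0, hA0]
      exact_mod_cast this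
    have hAB : A0 * B0 = (((P.a * P.b) ^ P.p : ℤ) : Kb) := by
      rw [hA0, hB0]; push_cast; ring
    have hvb : A.valuation (-(A0 * B0) / 16) = 1 := by
      rw [map_div₀, hv16, div_one, Valuation.map_neg, hAB]
      exact core_val_int_eq A hq hA (fun h => hab (hqz.dvd_of_dvd_pow h))
    have hvd : A.valuation (((B0 - A0) / 4) ^ 2 - 4 * (-(A0 * B0) / 16)) = 1 := by
      have : ((B0 - A0) / 4) ^ 2 - 4 * (-(A0 * B0) / 16) = C0 ^ 2 / 16 := by
        rw [← hABC]; ring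
      rw [this, map_div₀, hv16, div_one, map_pow, hC0,
        core_val_int_eq A hq hA (fun h => hc (hqz.dvd_of_dvd_pow h)), one_pow]
    exact p_core_good A hk hch hp hp2 hv2 (σ : Kb →+* Kb) (freyS P.freyCurve σ) hin
      (freyS_eq_zero _ σ) (freyS_xi _ σ 0 (map_zero σ)) (freyS_eta _ σ) haA hvb hvd Q hQ

/-- the coefficients of the Kummer line are integral away from `2` -/
theorem frey_coeff_mem (P : FreyPackage) (A : ValuationSubring Kb) (hv2 : A.valuation (2 : Kb) = 1) :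
    (((P.b ^ P.p : ℤ) : Kb) - ((P.a ^ P.p : ℤ) : Kb)) / 4 ∈ A ∧
      -(((P.a ^ P.p : ℤ) : Kb) * ((P.b ^ P.p : ℤ) : Kb)) / 16 ∈ A := by
  have hv4 : A.valuation (4 : Kb) = 1 := by
    have : (4 : Kb) = 2 * 2 := by norm_num
    rw [this, map_mul, hv2, one_mul]
  have hv16 : A.valuation (16 : Kb) = 1 := by
    have : (16 : Kb) = 4 * 4 := by norm_num
    rw [this, map_mul, hv4, one_mul]
  constructor
  · rw [← A.valuation_le_one_iff, map_div₀, hv4, div_one, A.valuation_le_one_iff]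
    exact sub_mem (core_int_mem A _) (core_int_mem A _)
  · rw [← A.valuation_le_one_iff, map_div₀, hv16, div_one, A.valuation_le_one_iff]
    exact neg_mem (mul_mem (core_int_mem A _) (core_int_mem A _))

end Fermat.Agent.S13
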