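import Mathlib
import Fermat.Agent.S05.Defs

/-!
# S13 (M1): the Montgomery ladder on a Kummer line

Polynomials `(A_n, B_n)` with `ξ (n P) = A_n (ξ P) / B_n (ξ P)`, of degree `≤ 2 n ^ 2`, with control
of the leading coefficients.  Consequences: the `n`-torsion is finite with at most `4 n ^ 2` elements,
and it is non trivial for odd `n > 1` (over an algebraically closed field of characteristic `0`).
-/

set_option autoImplicit false
set_option linter.unusedVariables false

namespace Fermat.Agent.S13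

open Polynomial Fermat.Agent.S05

section Top

variable {R : Type*} [CommRing R]

/-- `F` has degree `≤ D` and its coefficient of degree `D` is `c` -/
def IsTop (F : R[X]) (D : ℕ) (c : R) : Prop := F.natDegree ≤ D ∧ F.coeff D = c

lemma IsTop.mul {F G : R[X]} {D E : ℕ} {c d : R} (hF : IsTop F D c) (hG : IsTop G E d) :
    IsTop (F * G) (D + E) (c * d) :=
  ⟨natDegree_mul_le_of_le hF.1 hG.1, by
    rw [coeff_mul_add_eq_of_natDegree_le hF.1 hG.1, hF.2, hG.2]⟩

lemma IsTop.sub {F G : R[X]} {D : ℕ} {c d : R} (hF : IsTop F D c) (hG : IsTop G D d) :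
    IsTop (F - G) D (c - d) :=
  ⟨(natDegree_sub_le _ _).trans (max_le hF.1 hG.1), by rw [coeff_sub, hF.2, hG.2]⟩

lemma IsTop.add {F G : R[X]} {D : ℕ} {c d : R} (hF : IsTop F D c) (hG : IsTop G D d) :
    IsTop (F + G) D (c + d) :=
  ⟨(natDegree_add_le _ _).trans (max_le hF.1 hG.1), by rw [coeff_add, hF.2, hG.2]⟩

lemma IsTop.C_mul {F : R[X]} {D : ℕ} {c : R} (r : R) (hF : IsTop F D c) :
    IsTop (C r * F) D (r * c) :=
  ⟨(natDegree_C_mul_le _ _).trans hF.1, by rw [coeff_C_mul, hF.2]⟩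

lemma IsTop.sq {F : R[X]} {D : ℕ} {c : R} (hF : IsTop F D c) : IsTop (F ^ 2) (D + D) (c * c) := by
  rw [pow_two]; exact hF.mul hF

lemma IsTop.of_X_mul {B : R[X]} {D : ℕ} {c : R} (h : IsTop (X * B) D c) : IsTop B D 0 := by
  have key : ∀ m, D ≤ m → B.coeff m = 0 := by
    intro m hm
    rw [← coeff_X_mul]
    exact coeff_eq_zero_of_natDegree_lt (lt_of_le_of_lt h.1 (Nat.lt_succ_of_le hm))
  exact ⟨natDegree_le_iff_coeff_eq_zero.2 fun m hm => key m hm.le, key D le_rfl⟩

lemma IsTop.congr {F : R[X]} {D D' : ℕ} {c c' : R} (h : IsTop F D c) (hD : D = D') (hc : c = c') :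
    IsTop F D' c' := by subst hD; subst hc; exact h

end Top

section Poly

variable {R : Type*} [CommRing R]

/-- the ladder polynomials: `Lad a b n A B D` (where `a` is FOUR TIMES the coefficient `a` of the
Kummer line) says that `(A, B)` are projective coordinates of `ξ (n P)` in terms of `X = ξ P`, of
formal degree `D`. -/
inductive Lad (a b : R) : ℕ → R[X] → R[X] → ℕ → Prop
  | zero : Lad a b 0 1 0 0
  | one : Lad a b 1 X 1 1
  | dbl {n : ℕ} {A B : R[X]} {D : ℕ} : Lad a b n A B D →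
      Lad a b (2 * n) ((A ^ 2 - C b * B ^ 2) ^ 2)
        (A * B * (C 4 * A ^ 2 + C a * (A * B) + C 4 * (C b * B ^ 2))) (4 * D)
  | add {n : ℕ} {A B A' B' : R[X]} {D D' : ℕ} : Lad a b n A B D → Lad a b (n + 1) A' B' D' →
      Lad a b (2 * n + 1) ((A * A' - C b * (B * B')) ^ 2) (X * (A * B' - A' * B) ^ 2)
        (2 * (D + D'))

theorem Lad.exists (a b : R) (n : ℕ) (hn : 1 ≤ n) :
    ∃ (A B : R[X]) (D : ℕ), Lad a b n A B D ∧ D + 1 ≤ 2 * n ^ 2 := by
  induction n using Nat.strong_induction_on with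
  | _ n ih =>
    rcases Nat.even_or_odd' n with ⟨k, rfl | rfl⟩
    · obtain ⟨A, B, D, h, hD⟩ := ih k (by omega) (by omega)
      exact ⟨_, _, _, h.dbl, by nlinarith⟩
    · rcases Nat.eq_zero_or_pos k with rfl | hk
      · exact ⟨_, _, _, Lad.one, by norm_num⟩
      · obtain ⟨A, B, D, h, hD⟩ := ih k (by omega) (by omega)
        obtain ⟨A', B', D', h', hD'⟩ := ih (k + 1) (by omega) (by omega)
        exact ⟨_, _, _, h.add h', by nlinarith⟩

theorem Lad.top {a b : R} {n : ℕ} {A B : R[X]} {D : ℕ} (h : Lad a b n A B D) :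
    IsTop A D 1 ∧ IsTop (X * B) D ((n : R) ^ 2) := by
  induction h with
  | zero => exact ⟨⟨by simp, by simp⟩, ⟨by simp, by simp⟩⟩
  | one => exact ⟨⟨natDegree_X_le, by simp⟩, ⟨by rw [mul_one]; exact natDegree_X_le, by simp⟩⟩
  | @dbl n A B D _ ih =>
    obtain ⟨hA, hXB⟩ := ih
    have hB := hXB.of_X_mul
    constructor
    · exact ((hA.sq.sub (hB.sq.C_mul b)).sq).congr (by ring) (by ring)
    · have e : X * (A * B * (C 4 * A ^ 2 + C a * (A * B) + C 4 * (C b * B ^ 2))) =
          A * (X * B) * (C 4 * A ^ 2 + C a * (A * B) + C 4 * (C b * B ^ 2)) := by ring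
      rw [e]
      exact ((hA.mul hXB).mul (((hA.sq.C_mul 4).add ((hA.mul hB).C_mul a)).add
        ((hB.sq.C_mul b).C_mul 4))).congr (by ring) (by push_cast; ring)
  | @add n A B A' B' D D' _ _ ih ih' =>
    obtain ⟨hA, hXB⟩ := ih
    obtain ⟨hA', hXB'⟩ := ih'
    have hB := hXB.of_X_mul
    have hB' := hXB'.of_X_mul
    constructor
    · exact (((hA.mul hA').sub ((hB.mul hB').C_mul b)).sq).congr (by ring) (by ring)
    · have e : X * (X * (A * B' - A' * B) ^ 2) = (A * (X * B') - A' * (X * B)) ^ 2 := by ring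
      rw [e]
      exact (((hA.mul hXB').sub ((hA'.mul hXB).congr (add_comm _ _) rfl)).sq).congr (by ring)
        (by push_cast; ring)

theorem Lad.map {S : Type*} [CommRing S] (f : R →+* S) {a b : R} {n : ℕ} {A B : R[X]} {D : ℕ}
    (h : Lad a b n A B D) : Lad (f a) (f b) n (A.map f) (B.map f) D := by
  induction h with
  | zero => simpa using Lad.zero
  | one => simpa using Lad.one
  | dbl _ ih =>
    have h4 : f 4 = 4 := map_ofNat f 4
    simpa [h4] using ih.dbl
  | add _ _ ih ih' => simpa using ih.add ih'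

end Poly

section Spec

variable {G k : Type*} [AddCommGroup G] [Field k] {ξ η : G → k} {a b : k}

lemma lad_disc (hb : b ≠ 0) (hd : a ^ 2 ≠ 4 * b) {x : k} (h1 : x * (x ^ 2 + a * x + b) = 0)
    (h2 : x ^ 2 = b) : False := by
  rcases mul_eq_zero.1 h1 with h | h
  · apply hb
    rw [← h2, h]
    ring
  · apply hd
    have h3 : a * x = -2 * b := by linear_combination h - h2
    have h4 : a ^ 2 * b = 4 * b * b := by
      have : (a * x) ^ 2 = (-2 * b) ^ 2 := by rw [h3]
      linear_combination this - a ^ 2 * h2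
    exact mul_right_cancel₀ hb h4

lemma lad_cubic_ne (hK : KLine ξ η a b) (hb : b ≠ 0) (hd : a ^ 2 ≠ 4 * b) {P : G} (hP : P ≠ 0)
    (h2P : P + P ≠ 0) : ξ P * (ξ P ^ 2 + a * ξ P + b) ≠ 0 := by
  intro h
  have h1 := hK.dbl P hP h2P
  rw [h, mul_zero, zero_mul] at h1
  exact lad_disc hb hd h (sub_eq_zero.1 (pow_eq_zero_iff (two_ne_zero)|>.1 h1.symm))

lemma lad_cubic_eq (hK : KLine ξ η a b) (h2 : (2 : k) ≠ 0) {P : G} (hP : P ≠ 0)
    (h2P : P + P = 0) : ξ P * (ξ P ^ 2 + a * ξ P + b) = 0 := by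
  have h1 : -P = P := (eq_neg_of_add_eq_zero_left h2P).symm
  have h3 : η P = 0 := by
    have := hK.eta_neg P
    rw [h1] at this
    have h4 : 2 * η P = 0 := by linear_combination this
    exact (mul_eq_zero.1 h4).resolve_left h2
  have h5 := hK.eta_sq P hP
  rw [h3] at h5
  have h4 : (4 : k) ≠ 0 := by
    have : (4 : k) = 2 * 2 := by norm_num
    rw [this]; exact mul_ne_zero h2 h2
  have h6 : 4 * (ξ P * (ξ P ^ 2 + a * ξ P + b)) = 0 := by rw [← h5]; ring
  exact (mul_eq_zero.1 h6).resolve_left h4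

lemma lad_sq_ne (hK : KLine ξ η a b) (h2 : (2 : k) ≠ 0) (hb : b ≠ 0) (hd : a ^ 2 ≠ 4 * b) {P : G}
    (hP : P ≠ 0) (h2P : P + P = 0) : ξ P ^ 2 - b ≠ 0 := fun h =>
  lad_disc hb hd (lad_cubic_eq hK h2 hP h2P) (sub_eq_zero.1 h)

theorem Lad.spec (hK : KLine ξ η a b) (h2 : (2 : k) ≠ 0) (hb : b ≠ 0) (hd : a ^ 2 ≠ 4 * b)
    {n : ℕ} {A B : k[X]} {D : ℕ} (h : Lad (4 * a) b n A B D) (P : G) (hP : P ≠ 0)
    (hξ : ξ P ≠ 0) :
    (n • P ≠ 0 → B.eval (ξ P) ≠ 0 ∧ A.eval (ξ P) = B.eval (ξ P) * ξ (n • P)) ∧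
    (n • P = 0 → B.eval (ξ P) = 0 ∧ A.eval (ξ P) ≠ 0) := by
  have h4 : (4 : k) ≠ 0 := by
    have : (4 : k) = 2 * 2 := by norm_num
    rw [this]; exact mul_ne_zero h2 h2
  induction h with
  | zero => simp
  | one => simp [hP]
  | @dbl n A B D _ ih =>
    have e : (2 * n) • P = n • P + n • P := by rw [two_mul, add_smul]
    rw [e]
    simp only [eval_pow, eval_sub, eval_mul, eval_C, eval_add]
    generalize n • P = Q at *
    generalize A.eval (ξ P) = α at *
    generalize B.eval (ξ P) = β at *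
    by_cases hQ : Q = 0
    · obtain ⟨hB, hA⟩ := ih.2 hQ
      subst hQ hB
      simp [hA]
    · obtain ⟨hB, hA⟩ := ih.1 hQ
      subst hA
      constructor
      · intro hQQ
        have h1 := lad_cubic_ne hK hb hd hQ hQQ
        have h3 := hK.dbl Q hQ hQQ
        constructor
        · have : β * ξ Q * β * (4 * (β * ξ Q) ^ 2 + 4 * a * (β * ξ Q * β) + 4 * (b * β ^ 2)) =
              4 * β ^ 4 * (ξ Q * (ξ Q ^ 2 + a * ξ Q + b)) := by ring
          rw [this]
          exact mul_ne_zero (mul_ne_zero h4 (pow_ne_zero _ hB)) h1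
        · linear_combination (-β ^ 4) * h3
      · intro hQQ
        have h1 := lad_cubic_eq hK h2 hQ hQQ
        have h3 := lad_sq_ne hK h2 hb hd hQ hQQ
        constructor
        · linear_combination 4 * β ^ 4 * h1
        · have : ((β * ξ Q) ^ 2 - b * β ^ 2) ^ 2 = β ^ 4 * (ξ Q ^ 2 - b) ^ 2 := by ring
          rw [this]
          exact mul_ne_zero (pow_ne_zero _ hB) (pow_ne_zero _ h3)
  | @add n A B A' B' D D' _ _ ih ih' =>
    have e : (2 * n + 1) • P = (n + 1) • P + n • P := by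
      rw [← add_smul]; congr 1; ring
    have e' : (n + 1) • P - n • P = P := by rw [add_smul, one_smul]; abel
    rw [e]
    simp only [eval_pow, eval_sub, eval_mul, eval_C, eval_X]
    generalize (n + 1) • P = Q' at *
    generalize n • P = Q at *
    generalize A.eval (ξ P) = α at *
    generalize B.eval (ξ P) = β at *
    generalize A'.eval (ξ P) = α' at *
    generalize B'.eval (ξ P) = β' at *
    by_cases hQ : Q = 0
    · obtain ⟨hB, hA⟩ := ih.2 hQ
      subst hQ hB
      rw [sub_zero] at e'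
      subst e'
      obtain ⟨hB', hA'⟩ := ih'.1 hP
      subst hA'
      rw [add_zero]
      refine ⟨fun _ => ⟨?_, by ring⟩, fun h => absurd h hP⟩
      have : ξ Q' * (α * β' - β' * ξ Q' * 0) ^ 2 = ξ Q' * (α * β') ^ 2 := by ring
      rw [this]
      exact mul_ne_zero hξ (pow_ne_zero _ (mul_ne_zero hA hB'))
    by_cases hQ' : Q' = 0
    · obtain ⟨hB', hA'⟩ := ih'.2 hQ'
      subst hQ' hB'
      rw [zero_sub] at e'
      have hQP : ξ Q = ξ P := by rw [← e', hK.neg]
      obtain ⟨hB, hA⟩ := ih.1 hQ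
      subst hA
      rw [zero_add]
      refine ⟨fun _ => ⟨?_, by rw [hQP]; ring⟩, fun h => absurd h hQ⟩
      have : ξ P * (β * ξ Q * 0 - α' * β) ^ 2 = ξ P * (α' * β) ^ 2 := by ring
      rw [this]
      exact mul_ne_zero hξ (pow_ne_zero _ (mul_ne_zero hA' hB))
    obtain ⟨hB, hA⟩ := ih.1 hQ
    obtain ⟨hB', hA'⟩ := ih'.1 hQ'
    subst hA hA'
    constructor
    · intro hs
      have hm : Q' - Q ≠ 0 := by rw [e']; exact hP
      have h1 := hK.prod Q' Q hQ' hQ hs hm
      rw [e'] at h1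
      have hne : ξ Q' - ξ Q ≠ 0 := by
        intro h
        rcases hK.inj Q' Q hQ' hQ (sub_eq_zero.1 h) with h | h
        · exact hm (by rw [h, sub_self])
        · exact hs (by rw [h, neg_add_cancel])
      constructor
      · have : ξ P * (β * ξ Q * β' - β' * ξ Q' * β) ^ 2 =
            ξ P * ((β * β') ^ 2 * (ξ Q' - ξ Q) ^ 2) := by ring
        rw [this]
        exact mul_ne_zero hξ (mul_ne_zero (pow_ne_zero _ (mul_ne_zero hB hB')) (pow_ne_zero _ hne))
      · linear_combination (-(β * β') ^ 2) * h1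
    · intro hs
      have hQQ : Q' = -Q := eq_neg_of_add_eq_zero_left hs
      have hξQ : ξ Q' = ξ Q := by rw [hQQ, hK.neg]
      have h2Q : Q + Q ≠ 0 := by
        intro h
        apply hP
        rw [← e', hQQ]
        rw [← neg_eq_zero]
        simpa [add_comm] using h
      have hPQ : ξ (Q + Q) = ξ P := by
        rw [← e', hQQ, ← hK.neg]
        congr 1
        abel
      have h1 := lad_cubic_ne hK hb hd hQ h2Q
      have h3 := hK.dbl Q hQ h2Q
      rw [hPQ] at h3
      constructor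
      · rw [hξQ]; ring
      · rw [hξQ]
        have : (β * ξ Q * (β' * ξ Q) - b * (β * β')) ^ 2 = (β * β') ^ 2 * (ξ Q ^ 2 - b) ^ 2 := by ring
        rw [this, ← h3]
        exact mul_ne_zero (pow_ne_zero _ (mul_ne_zero hB hB')) (mul_ne_zero (mul_ne_zero h4 h1) hξ)

/-- the `n`-torsion is finite, with at most `4 n ^ 2` elements -/
theorem lad_torsion_finite (hK : KLine ξ η a b) (h2 : (2 : k) ≠ 0) (hb : b ≠ 0)
    (hd : a ^ 2 ≠ 4 * b) (n : ℕ) (hn : (n : k) ≠ 0) :
    {P : G | n • P = 0}.Finite ∧ {P : G | n • P = 0}.ncard ≤ 4 * n ^ 2 := by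
  classical
  have hn1 : 1 ≤ n := by
    rcases Nat.eq_zero_or_pos n with rfl | h
    · simp at hn
    · exact h
  obtain ⟨A, B, D, h, hD⟩ := Lad.exists (4 * a) b n hn1
  obtain ⟨-, hXB⟩ := h.top
  have hF : X * B ≠ 0 := by
    intro h0
    have := hXB.2
    rw [h0, coeff_zero] at this
    exact pow_ne_zero 2 hn this.symm
  let pt : k → G := fun r => if h : ∃ P, P ≠ 0 ∧ ξ P = r then h.choose else 0
  set T : Finset k := (X * B).roots.toFinset with hT
  have hTcard : T.card ≤ D :=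
    (Multiset.toFinset_card_le _).trans ((card_roots' _).trans hXB.1)
  have hsub : {P : G | n • P = 0} ⊆
      insert 0 ((fun r => pt r) '' (T : Set k) ∪ (fun r => -pt r) '' (T : Set k)) := by
    intro P hP
    by_cases hP0 : P = 0
    · exact Or.inl hP0
    right
    have hroot : ξ P ∈ T := by
      rw [hT, Multiset.mem_toFinset, mem_roots hF, IsRoot.def, eval_mul, eval_X]
      by_cases hξ : ξ P = 0
      · rw [hξ, zero_mul]
      · rw [((h.spec hK h2 hb hd P hP0 hξ).2 hP).1, mul_zero]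
    have hex : ∃ Q, Q ≠ 0 ∧ ξ Q = ξ P := ⟨P, hP0, rfl⟩
    have hpt : pt (ξ P) = hex.choose := dif_pos hex
    obtain ⟨h1, h3⟩ := hex.choose_spec
    rcases hK.inj P _ hP0 h1 h3.symm with h4 | h4
    · left
      exact ⟨ξ P, hroot, by show pt (ξ P) = P; rw [hpt]; exact h4.symm⟩
    · right
      exact ⟨ξ P, hroot, by show -pt (ξ P) = P; rw [hpt]; exact h4.symm⟩
  have hfin : (insert 0 ((fun r => pt r) '' (T : Set k) ∪ (fun r => -pt r) '' (T : Set k)) :
      Set G).Finite :=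
    ((T.finite_toSet.image _).union (T.finite_toSet.image _)).insert 0
  refine ⟨hfin.subset hsub, (Set.ncard_le_ncard hsub hfin).trans ?_⟩
  have h5 : ((fun r => pt r) '' (T : Set k)).ncard ≤ D :=
    (Set.ncard_image_le T.finite_toSet).trans (by rw [Set.ncard_coe_finset]; exact hTcard)
  have h6 : ((fun r => -pt r) '' (T : Set k)).ncard ≤ D :=
    (Set.ncard_image_le T.finite_toSet).trans (by rw [Set.ncard_coe_finset]; exact hTcard)
  have h7 := Set.ncard_insert_le (0 : G)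
    ((fun r => pt r) '' (T : Set k) ∪ (fun r => -pt r) '' (T : Set k))
  have h8 := Set.ncard_union_le ((fun r => pt r) '' (T : Set k)) ((fun r => -pt r) '' (T : Set k))
  omega

lemma lad_eval_of_roots [IsAlgClosed k] {p : k[X]} (hp : p ≠ 0)
    (h : ∀ x, x ≠ 0 → p.eval x ≠ 0) (x : k) : p.eval x = p.leadingCoeff * x ^ p.natDegree := by
  have hs := IsAlgClosed.splits p
  have hr : p.roots = Multiset.replicate p.natDegree 0 := by
    rw [hs.natDegree_eq_card_roots]
    refine Multiset.eq_replicate_card.2 fun r hr => ?_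
    by_contra h0
    exact h r h0 ((mem_roots hp).1 hr)
  rw [hs.eval_eq_prod_roots, hr]
  simp

lemma lad_odd_smul {n : ℕ} (hn : Odd n) {P : G} (hP : P + P = 0) : n • P = P := by
  obtain ⟨m, rfl⟩ := hn
  rw [add_smul, one_smul, mul_comm, mul_smul, two_smul, hP, smul_zero, zero_add]

/-- there is a non trivial `n`-torsion point for odd `n > 1` -/
theorem lad_exists_torsion_odd [IsAlgClosed k] [CharZero k] (hK : KLine ξ η a b) (hb : b ≠ 0)
    (hd : a ^ 2 ≠ 4 * b) (hsurj : ∀ x : k, ∃ P : G, P ≠ 0 ∧ ξ P = x) (n : ℕ) (hn : Odd n)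
    (hn1 : 1 < n) : ∃ P : G, P ≠ 0 ∧ n • P = 0 := by
  by_contra hno
  push Not at hno
  have h2 : (2 : k) ≠ 0 := two_ne_zero
  -- the point `T` with `ξ T = 0`
  obtain ⟨T, hT0, hξT⟩ := hsurj 0
  have hTT : T + T = 0 := by
    by_contra h
    exact lad_cubic_ne hK hb hd hT0 h (by rw [hξT, zero_mul])
  -- another point of order two
  obtain ⟨s, hs⟩ := IsAlgClosed.exists_pow_nat_eq (a ^ 2 - 4 * b) (n := 2) (by norm_num)
  set e : k := (-a + s) / 2 with he
  have hee : e ^ 2 + a * e + b = 0 := by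
    rw [he]
    field_simp
    linear_combination hs
  have he0 : e ≠ 0 := by
    intro h
    rw [h] at hee
    apply hb
    linear_combination hee
  obtain ⟨E, hE0, hξE⟩ := hsurj e
  have hEE : E + E = 0 := by
    by_contra h
    exact lad_cubic_ne hK hb hd hE0 h (by rw [hξE, hee, mul_zero])
  obtain ⟨A, B, D, h, -⟩ := Lad.exists (4 * a) b n hn1.le
  obtain ⟨hA, hXB⟩ := h.top
  have hnk : ((n : k)) ^ 2 ≠ 0 := pow_ne_zero 2 (by exact_mod_cast (by omega : n ≠ 0))
  have hA0 : A ≠ 0 := by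
    intro h0
    have := hA.2
    rw [h0, coeff_zero] at this
    exact one_ne_zero this.symm
  have hF0 : X * B ≠ 0 := by
    intro h0
    have := hXB.2
    rw [h0, coeff_zero] at this
    exact hnk this.symm
  have hAdeg : A.natDegree = D :=
    le_antisymm hA.1 (le_natDegree_of_ne_zero (by rw [hA.2]; exact one_ne_zero))
  have hFdeg : (X * B).natDegree = D :=
    le_antisymm hXB.1 (le_natDegree_of_ne_zero (by rw [hXB.2]; exact hnk))
  have hAroot : ∀ x, x ≠ 0 → A.eval x ≠ 0 := by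
    intro x hx hAx
    obtain ⟨P, hP0, hξP⟩ := hsurj x
    have hξ : ξ P ≠ 0 := by rw [hξP]; exact hx
    obtain ⟨hB1, hA1⟩ := (h.spec hK h2 hb hd P hP0 hξ).1 (hno P hP0)
    rw [hξP, hAx] at hA1
    rw [hξP] at hB1
    have h3 : ξ (n • P) = ξ T := by
      rw [hξT]
      exact (mul_eq_zero.1 hA1.symm).resolve_left hB1
    have h4 : n • P = T := by
      rcases hK.inj _ _ (hno P hP0) hT0 h3 with h5 | h5
      · exact h5
      · rw [h5]; exact (eq_neg_of_add_eq_zero_left hTT).symm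
    have h5 : n • (P - T) = 0 := by rw [smul_sub, h4, lad_odd_smul hn hTT, sub_self]
    have h6 : P - T = 0 := by
      by_contra h7
      exact hno _ h7 h5
    rw [sub_eq_zero.1 h6] at hξ
    exact hξ hξT
  have hFroot : ∀ x, x ≠ 0 → (X * B).eval x ≠ 0 := by
    intro x hx
    obtain ⟨P, hP0, hξP⟩ := hsurj x
    have hξ : ξ P ≠ 0 := by rw [hξP]; exact hx
    obtain ⟨hB1, -⟩ := (h.spec hK h2 hb hd P hP0 hξ).1 (hno P hP0)
    rw [hξP] at hB1
    rw [eval_mul, eval_X]
    exact mul_ne_zero hx hB1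
  have h7 := lad_eval_of_roots hA0 hAroot e
  have h8 := lad_eval_of_roots hF0 hFroot e
  rw [leadingCoeff, hAdeg, hA.2] at h7
  rw [leadingCoeff, hFdeg, hXB.2, eval_mul, eval_X] at h8
  have hξ : ξ E ≠ 0 := by rw [hξE]; exact he0
  obtain ⟨-, hA1⟩ := (h.spec hK h2 hb hd E hE0 hξ).1 (hno E hE0)
  rw [lad_odd_smul hn hEE, hξE] at hA1
  have h9 : ((n : k) ^ 2 - 1) * e ^ D = 0 := by linear_combination h7 - h8 - hA1
  have h10 : (n : k) ^ 2 - 1 = 0 := (mul_eq_zero.1 h9).resolve_right (pow_ne_zero _ he0)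
  have h11 : ((n ^ 2 : ℕ) : k) = ((1 : ℕ) : k) := by push_cast; linear_combination h10
  have h12 : n ^ 2 = 1 := Nat.cast_injective h11
  nlinarith

end Spec

section Skel

variable {G K : Type*} [AddCommGroup G] [Field K] {ξ η : G → K} {a b : K}

/-- the polynomial `W = A_m B_{m+1} - A_{m+1} B_m`, whose roots are the `ξ P`, `(2 m + 1) P = 0` -/
theorem lad_W [CharZero K] (h : KLine ξ η a b) (b2 b4 : ℤ) (h4a : 4 * a = b2) (hb : b = b4)
    (hb0 : b ≠ 0) (hdisc : a ^ 2 - 4 * b ≠ 0) (m : ℕ) (hm : 1 ≤ m) :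
    ∃ W : ℤ[X], W.natDegree ≤ (2 * m + 1) ^ 2 - 2 ∧ W.leadingCoeff = (2 * m + 1 : ℤ) ∧
      ∀ P : G, P ≠ 0 → ξ P ≠ 0 → (aeval (ξ P) W = 0 ↔ (2 * m + 1) • P = 0) := by
  have h2 : (2 : K) ≠ 0 := two_ne_zero
  have hd : a ^ 2 ≠ 4 * b := fun h0 => hdisc (sub_eq_zero.2 h0)
  obtain ⟨A, B, D, hL, hD⟩ := Lad.exists b2 b4 m hm
  obtain ⟨A', B', D', hL', hD'⟩ := Lad.exists b2 b4 (m + 1) (by omega)
  obtain ⟨hA, hXB⟩ := hL.top
  obtain ⟨hA', hXB'⟩ := hL'.top
  have hXW : IsTop (X * (A * B' - A' * B)) (D + D') (2 * m + 1 : ℤ) := by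
    have e : X * (A * B' - A' * B) = A * (X * B') - A' * (X * B) := by ring
    rw [e]
    exact ((hA.mul hXB').sub ((hA'.mul hXB).congr (add_comm _ _) rfl)).congr rfl
      (by push_cast; ring)
  have hne : (2 * m + 1 : ℤ) ≠ 0 := by omega
  have hW0 : A * B' - A' * B ≠ 0 := by
    intro h0
    have := hXW.2
    rw [h0, mul_zero, coeff_zero] at this
    exact hne this.symm
  have hdeg : (X * (A * B' - A' * B)).natDegree = D + D' :=
    le_antisymm hXW.1 (le_natDegree_of_ne_zero (by rw [hXW.2]; exact hne))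
  have hdeg' : (A * B' - A' * B).natDegree + 1 = D + D' := by
    rw [← hdeg, natDegree_X_mul hW0]
  refine ⟨A * B' - A' * B, ?_, ?_, ?_⟩
  · have e : (2 * m + 1) ^ 2 = 4 * m ^ 2 + 4 * m + 1 := by ring
    have e' : 2 * (m + 1) ^ 2 = 2 * m ^ 2 + 4 * m + 2 := by ring
    omega
  · have h3 : (X * (A * B' - A' * B)).leadingCoeff = (2 * m + 1 : ℤ) := by
      rw [leadingCoeff, hdeg, hXW.2]
    rwa [leadingCoeff_mul, leadingCoeff_X, one_mul] at h3
  · intro P hP hξ
    have hLK : Lad (4 * a) b m (A.map (Int.castRingHom K)) (B.map (Int.castRingHom K)) D := by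
      have := hL.map (Int.castRingHom K)
      rwa [eq_intCast, eq_intCast, ← h4a, ← hb] at this
    have hLK' : Lad (4 * a) b (m + 1) (A'.map (Int.castRingHom K)) (B'.map (Int.castRingHom K))
        D' := by
      have := hL'.map (Int.castRingHom K)
      rwa [eq_intCast, eq_intCast, ← h4a, ← hb] at this
    have s1 := hLK.spec h h2 hb0 hd P hP hξ
    have s2 := hLK'.spec h h2 hb0 hd P hP hξ
    have e0 : aeval (ξ P) (A * B' - A' * B) =
        (A.map (Int.castRingHom K)).eval (ξ P) * (B'.map (Int.castRingHom K)).eval (ξ P) -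
        (A'.map (Int.castRingHom K)).eval (ξ P) * (B.map (Int.castRingHom K)).eval (ξ P) := by
      simp only [map_sub, map_mul, aeval_def, eval₂_eq_eval_map]
      rfl
    rw [e0]
    have e : (2 * m + 1) • P = (m + 1) • P + m • P := by
      rw [← add_smul]; congr 1; ring
    have e' : (m + 1) • P - m • P = P := by rw [add_smul, one_smul]; abel
    rw [e]
    generalize (m + 1) • P = Q' at *
    generalize m • P = Q at *
    generalize (A.map (Int.castRingHom K)).eval (ξ P) = α at *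
    generalize (B.map (Int.castRingHom K)).eval (ξ P) = β at *
    generalize (A'.map (Int.castRingHom K)).eval (ξ P) = α' at *
    generalize (B'.map (Int.castRingHom K)).eval (ξ P) = β' at *
    by_cases hQ : Q = 0
    · obtain ⟨hB, hA⟩ := s1.2 hQ
      subst hQ hB
      rw [sub_zero] at e'
      subst e'
      obtain ⟨hB', -⟩ := s2.1 hP
      rw [add_zero, mul_zero, sub_zero]
      exact ⟨fun h0 => absurd h0 (mul_ne_zero hA hB'), fun h0 => absurd h0 hP⟩
    by_cases hQ' : Q' = 0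
    · obtain ⟨hB', hA'⟩ := s2.2 hQ'
      subst hQ' hB'
      obtain ⟨hB, -⟩ := s1.1 hQ
      rw [zero_add, mul_zero, zero_sub, neg_eq_zero]
      exact ⟨fun h0 => absurd h0 (mul_ne_zero hA' hB), fun h0 => absurd h0 hQ⟩
    obtain ⟨hB, hA⟩ := s1.1 hQ
    obtain ⟨hB', hA'⟩ := s2.1 hQ'
    subst hA hA'
    have e1 : β * ξ Q * β' - β' * ξ Q' * β = β * β' * (ξ Q - ξ Q') := by ring
    rw [e1, mul_eq_zero, or_iff_right (mul_ne_zero hB hB'), sub_eq_zero]
    constructor
    · intro h0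
      rcases h.inj Q' Q hQ' hQ h0.symm with h3 | h3
      · exact absurd (by rw [← e', h3, sub_self]) hP
      · rw [h3, neg_add_cancel]
    · intro h0
      rw [eq_neg_of_add_eq_zero_left h0, h.neg]

theorem lad_exists_torsion [CharZero K] [IsAlgClosed K] (h : KLine ξ η a b) (b2 b4 : ℤ)
    (h4a : 4 * a = b2) (hb : b = b4) (hb0 : b ≠ 0) (hdisc : a ^ 2 - 4 * b ≠ 0)
    (hsurj : ∀ x₀ : K, ∃ P : G, P ≠ 0 ∧ ξ P = x₀) (m : ℕ) (hm : 1 ≤ m) :
    ∃ P : G, P ≠ 0 ∧ (2 * m + 1) • P = 0 :=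
  lad_exists_torsion_odd h hb0 (fun h0 => hdisc (sub_eq_zero.2 h0)) hsurj (2 * m + 1) ⟨m, rfl⟩
    (by omega)

theorem lad_finite_torsion [CharZero K] (h : KLine ξ η a b) (b2 b4 : ℤ) (h4a : 4 * a = b2)
    (hb : b = b4) (hb0 : b ≠ 0) (hdisc : a ^ 2 - 4 * b ≠ 0) (m : ℕ) (hm : 1 ≤ m) :
    {P : G | (2 * m + 1) • P = 0}.Finite ∧
      {P : G | (2 * m + 1) • P = 0}.ncard ≤ 2 * (2 * m + 1) ^ 2 := by
  classical
  have hd : a ^ 2 ≠ 4 * b := fun h0 => hdisc (sub_eq_zero.2 h0)
  obtain ⟨W, hWdeg, hWlead, hW⟩ := lad_W h b2 b4 h4a hb hb0 hdisc m hm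
  have hW0 : W ≠ 0 := by
    intro h0
    rw [h0, leadingCoeff_zero] at hWlead
    omega
  have hWK : W.map (Int.castRingHom K) ≠ 0 :=
    (Polynomial.map_ne_zero_iff (RingHom.injective_int (Int.castRingHom K))).2 hW0
  let pt : K → G := fun r => if h : ∃ P, P ≠ 0 ∧ ξ P = r then h.choose else 0
  set T : Finset K := (W.map (Int.castRingHom K)).roots.toFinset with hT
  have hTcard : T.card ≤ (2 * m + 1) ^ 2 - 2 :=
    (Multiset.toFinset_card_le _).trans ((card_roots' _).trans (natDegree_map_le.trans hWdeg))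
  have hsub : {P : G | (2 * m + 1) • P = 0} ⊆
      insert 0 ((fun r => pt r) '' (T : Set K) ∪ (fun r => -pt r) '' (T : Set K)) := by
    intro P hP
    by_cases hP0 : P = 0
    · exact Or.inl hP0
    right
    have hξ : ξ P ≠ 0 := by
      intro hξ
      have hPP : P + P = 0 := by
        by_contra h0
        exact lad_cubic_ne h hb0 hd hP0 h0 (by rw [hξ, zero_mul])
      have h3 : (2 * m + 1) • P = P := lad_odd_smul ⟨m, rfl⟩ hPP
      exact hP0 (h3.symm.trans hP)
    have hroot : ξ P ∈ T := by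
      rw [hT, Multiset.mem_toFinset, mem_roots hWK, IsRoot.def, eval_map]
      exact (hW P hP0 hξ).2 hP
    have hex : ∃ Q, Q ≠ 0 ∧ ξ Q = ξ P := ⟨P, hP0, rfl⟩
    have hpt : pt (ξ P) = hex.choose := dif_pos hex
    obtain ⟨h1, h3⟩ := hex.choose_spec
    rcases h.inj P _ hP0 h1 h3.symm with h4 | h4
    · left
      exact ⟨ξ P, hroot, by show pt (ξ P) = P; rw [hpt]; exact h4.symm⟩
    · right
      exact ⟨ξ P, hroot, by show -pt (ξ P) = P; rw [hpt]; exact h4.symm⟩
  have hfin : (insert 0 ((fun r => pt r) '' (T : Set K) ∪ (fun r => -pt r) '' (T : Set K)) :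
      Set G).Finite :=
    ((T.finite_toSet.image _).union (T.finite_toSet.image _)).insert 0
  refine ⟨hfin.subset hsub, (Set.ncard_le_ncard hsub hfin).trans ?_⟩
  have h5 : ((fun r => pt r) '' (T : Set K)).ncard ≤ (2 * m + 1) ^ 2 - 2 :=
    (Set.ncard_image_le T.finite_toSet).trans (by rw [Set.ncard_coe_finset]; exact hTcard)
  have h6 : ((fun r => -pt r) '' (T : Set K)).ncard ≤ (2 * m + 1) ^ 2 - 2 :=
    (Set.ncard_image_le T.finite_toSet).trans (by rw [Set.ncard_coe_finset]; exact hTcard)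
  have h7 := Set.ncard_insert_le (0 : G)
    ((fun r => pt r) '' (T : Set K) ∪ (fun r => -pt r) '' (T : Set K))
  have h8 := Set.ncard_union_le ((fun r => pt r) '' (T : Set K)) ((fun r => -pt r) '' (T : Set K))
  have h9 : 2 ≤ (2 * m + 1) ^ 2 := by nlinarith
  omega

end Skel

end Fermat.Agent.S13
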