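import Mathlib
import Fermat.Agent.S13.Ladder
import Fermat.Agent.S05.Frey
import Fermat.Prelude.Def_FLTPrelim_GaloisRep

/-!
# S13 (M1): the `p`-torsion of the Frey curve is non trivial, of dimension at most `2`
-/

set_option autoImplicit false
set_option linter.style.haveILetI false

namespace Fermat.Agent.S13

open WeierstrassCurve WeierstrassCurve.Affine WeierstrassCurve.Affine.Point
open Fermat.Agent.S05

local notation "Kb" => AlgebraicClosure ℚ

variable (P : FreyPackage)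

/-- `a ^ p` in `ℚ̄` -/
noncomputable def frA : Kb := ((P.a ^ P.p : ℤ) : Kb)
/-- `b ^ p` in `ℚ̄` -/
noncomputable def frB : Kb := ((P.b ^ P.p : ℤ) : Kb)
/-- `c ^ p` in `ℚ̄` -/
noncomputable def frC : Kb := ((P.c ^ P.p : ℤ) : Kb)

lemma frA_add_frB : frA P + frB P = frC P := by
  rw [frA, frB, frC]
  exact_mod_cast congrArg (Int.cast : ℤ → Kb) P.hFLT

lemma frA_ne_zero : frA P ≠ 0 := by
  rw [frA]; exact_mod_cast pow_ne_zero _ P.ha0

lemma frB_ne_zero : frB P ≠ 0 := by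
  rw [frB]; exact_mod_cast pow_ne_zero _ P.hb0

lemma frC_ne_zero : frC P ≠ 0 := by
  rw [frC]; exact_mod_cast pow_ne_zero _ P.hc0

/-- the Kummer line of the Frey curve, with the two-torsion point `(0, 0)` at `ξ = 0` -/
theorem frey_kline : KLine (xi (P.freyCurve⁄Kb) 0) (eta (P.freyCurve⁄Kb))
    ((frB P - frA P) / 4) (-(frA P * frB P) / 16) := by
  have hb2 := frey_b₂ P
  have hb4 := frey_b₄ P
  have hb6 := frey_b₆ P
  rw [← frA, ← frB] at hb2 hb4
  exact kline_weierstrass _ two_ne_zero 0 _ _ (by rw [hb2]; ring) (by rw [hb2, hb4]; ring)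
    (by rw [hb2, hb4, hb6]; ring)

lemma frey_b_ne_zero : -(frA P * frB P) / 16 ≠ 0 :=
  div_ne_zero (neg_ne_zero.2 (mul_ne_zero (frA_ne_zero P) (frB_ne_zero P))) (by norm_num)

lemma frey_disc_ne : ((frB P - frA P) / 4) ^ 2 ≠ 4 * (-(frA P * frB P) / 16) := by
  intro h
  have h1 : frC P ^ 2 = 0 := by
    rw [← frA_add_frB]
    linear_combination 16 * h
  exact frC_ne_zero P (pow_eq_zero_iff two_ne_zero |>.1 h1)

lemma frey_Δ_ne_zero : (P.freyCurve⁄Kb).Δ ≠ 0 := by
  have hb2 := frey_b₂ P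
  have hb4 := frey_b₄ P
  have hb6 := frey_b₆ P
  rw [← frA, ← frB] at hb2 hb4
  have hrel := (P.freyCurve⁄Kb).b_relation
  have hΔ : (P.freyCurve⁄Kb).Δ = (frA P * frB P * frC P) ^ 2 / 256 := by
    rw [WeierstrassCurve.Δ, ← frA_add_frB]
    rw [hb2, hb4, hb6] at hrel
    rw [hb2, hb4, hb6]
    linear_combination (-(frB P - frA P) ^ 2 / 4) * hrel
  rw [hΔ]
  exact div_ne_zero (pow_ne_zero _ (mul_ne_zero (mul_ne_zero (frA_ne_zero P) (frB_ne_zero P))
    (frC_ne_zero P))) (by norm_num)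

/-- every element of `ℚ̄` is the `x`-coordinate of a point -/
lemma frey_xi_surjective (x : Kb) : ∃ Q : (P.freyCurve⁄Kb).Point, Q ≠ 0 ∧
    xi (P.freyCurve⁄Kb) 0 Q = x := by
  set W := (P.freyCurve⁄Kb) with hW
  obtain ⟨s, hs⟩ := IsAlgClosed.exists_pow_nat_eq
    (4 * x ^ 3 + W.b₂ * x ^ 2 + 2 * W.b₄ * x + W.b₆) (n := 2) (by norm_num)
  have heq : W.Equation x ((s - W.a₁ * x - W.a₃) / 2) := by
    rw [Affine.equation_iff]
    simp only [WeierstrassCurve.b₂, WeierstrassCurve.b₄, WeierstrassCurve.b₆] at hs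
    field_simp
    linear_combination hs
  have hns : W.Nonsingular x ((s - W.a₁ * x - W.a₃) / 2) :=
    (Affine.equation_iff_nonsingular_of_Δ_ne_zero (frey_Δ_ne_zero P)).1 heq
  exact ⟨Point.some _ _ hns, Point.some_ne_zero _, by simp [xi]⟩

instance frey_fact_prime : Fact P.p.Prime := ⟨P.pp⟩

/-- the `p`-torsion of the Frey curve -/
abbrev FreyV : Type := Submodule.torsionBy ℤ (P.freyCurve⁄Kb).Point P.p

lemma freyV_mem_iff (Q : (P.freyCurve⁄Kb).Point) :
    Q ∈ Submodule.torsionBy ℤ (P.freyCurve⁄Kb).Point P.p ↔ P.p • Q = 0 := by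
  rw [Submodule.mem_torsionBy_iff, Nat.cast_smul_eq_nsmul]

theorem freyV_nontrivial : Nontrivial (FreyV P) := by
  obtain ⟨Q, hQ0, hQ⟩ := lad_exists_torsion_odd (frey_kline P) (frey_b_ne_zero P) (frey_disc_ne P)
    (frey_xi_surjective P) P.p P.hp_odd (by have := P.hp5; omega)
  exact ⟨⟨⟨Q, (freyV_mem_iff P Q).2 hQ⟩, 0, fun h => hQ0 (congrArg Subtype.val h)⟩⟩

lemma freyV_set_finite : {Q : (P.freyCurve⁄Kb).Point | P.p • Q = 0}.Finite ∧
    {Q : (P.freyCurve⁄Kb).Point | P.p • Q = 0}.ncard ≤ 4 * P.p ^ 2 :=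
  lad_torsion_finite (frey_kline P) two_ne_zero (frey_b_ne_zero P) (frey_disc_ne P) P.p
    (by exact_mod_cast P.hp0)

instance freyV_finite : Finite (FreyV P) := by
  have h := (freyV_set_finite P).1
  have e : ((Submodule.torsionBy ℤ (P.freyCurve⁄Kb).Point P.p : Submodule ℤ _) :
      Set (P.freyCurve⁄Kb).Point) = {Q : (P.freyCurve⁄Kb).Point | P.p • Q = 0} := by
    ext Q
    exact freyV_mem_iff P Q
  exact (e ▸ h : ((Submodule.torsionBy ℤ (P.freyCurve⁄Kb).Point P.p : Submodule ℤ _) :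
      Set (P.freyCurve⁄Kb).Point).Finite).to_subtype

theorem freyV_card_le : Nat.card (FreyV P) ≤ 4 * P.p ^ 2 := by
  have h := (freyV_set_finite P).2
  have e : ((Submodule.torsionBy ℤ (P.freyCurve⁄Kb).Point P.p : Submodule ℤ _) :
      Set (P.freyCurve⁄Kb).Point) = {Q : (P.freyCurve⁄Kb).Point | P.p • Q = 0} := by
    ext Q
    exact freyV_mem_iff P Q
  rw [← e] at h
  exact h

theorem freyV_finrank_le : Module.finrank (ZMod P.p) (FreyV P) ≤ 2 := by
  have h1 : Nat.card (FreyV P) = P.p ^ Module.finrank (ZMod P.p) (FreyV P) := by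
    rw [Module.natCard_eq_pow_finrank (K := ZMod P.p), Nat.card_zmod]
  have h2 := freyV_card_le P
  rw [h1] at h2
  by_contra h3
  push Not at h3
  have h4 : P.p ^ 3 ≤ P.p ^ Module.finrank (ZMod P.p) (FreyV P) :=
    Nat.pow_le_pow_right P.hppos h3
  have h5 := P.hp5
  nlinarith [h4, h2, h5, sq_nonneg P.p]

/-- if the representation is reducible, then `V` has dimension `2` and there is a stable line -/
theorem frey_exists_stable_line
    (hred : ¬ GaloisRepIsIrreducible (K := AlgebraicClosure ℚ) ℚ P.freyCurve P.p) :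
    ∃ N : Submodule (ZMod P.p) (FreyV P), IsGaloisStable ℚ N ∧ N ≠ ⊥ ∧ N ≠ ⊤ ∧
      Module.finrank (ZMod P.p) N = 1 ∧ Module.finrank (ZMod P.p) (FreyV P) = 2 := by
  rw [GaloisRepIsIrreducible, not_and] at hred
  have h1 := hred (freyV_nontrivial P)
  push Not at h1
  obtain ⟨N, hN, hbot, htop⟩ := h1
  haveI : Module.Finite (ZMod P.p) (FreyV P) := Module.Finite.of_finite
  have h2 : 0 < Module.finrank (ZMod P.p) N := by
    rw [Module.finrank_pos_iff]
    exact Submodule.nontrivial_iff_ne_bot.2 hbot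
  have h3 : Module.finrank (ZMod P.p) N < Module.finrank (ZMod P.p) (FreyV P) :=
    Submodule.finrank_lt htop
  have h4 := freyV_finrank_le P
  refine ⟨N, hN, hbot, htop, ?_, ?_⟩
  · exact le_antisymm (Nat.lt_succ_iff.1 (lt_of_lt_of_le h3 h4)) h2
  · exact le_antisymm h4 (lt_of_le_of_lt h2 h3)

end Fermat.Agent.S13
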