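import Mathlib

/-!
# S13 (M5): linear algebra in a plane
-/

set_option autoImplicit false

namespace Fermat.Agent.S13

variable {k V : Type*} [Field k] [AddCommGroup V] [Module k V]

/-- a square-zero endomorphism of a plane stabilising a line kills the line and maps to it -/
theorem la_nilpotent (N : Submodule k V) (hN : Module.finrank k N = 1)
    (hV : Module.finrank k V = 2) (φ : V →ₗ[k] V) (h2 : ∀ x, φ (φ x) = 0)
    (hφN : ∀ x ∈ N, φ x ∈ N) : (∀ x ∈ N, φ x = 0) ∧ ∀ x, φ x ∈ N := by
  have : Module.Finite k V := Module.finite_of_finrank_pos (by omega)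
  have hkill : ∀ x ∈ N, φ x = 0 := by
    obtain ⟨v, hv0, hv⟩ := finrank_eq_one_iff'.1 hN
    obtain ⟨c, hc⟩ := hv ⟨φ v, hφN v v.2⟩
    have hc' : φ v = c • (v : V) := (congrArg Subtype.val hc).symm
    have hv0' : (v : V) ≠ 0 := fun h => hv0 (Subtype.ext h)
    have h3 : (c * c) • (v : V) = 0 := by
      have := h2 v
      rw [hc', map_smul, hc', smul_smul] at this
      exact this
    have hc0 : c = 0 := by
      rcases smul_eq_zero.1 h3 with h4 | h4
      · exact mul_self_eq_zero.1 h4
      · exact absurd h4 hv0'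
    intro x hx
    obtain ⟨e, he⟩ := hv ⟨x, hx⟩
    have he' : x = e • (v : V) := (congrArg Subtype.val he).symm
    rw [he', map_smul, hc', hc0, zero_smul, smul_zero]
  refine ⟨hkill, fun x => ?_⟩
  by_contra hx
  have hle : N ≤ LinearMap.ker φ := fun y hy => LinearMap.mem_ker.2 (hkill y hy)
  have hlt : N < LinearMap.ker φ :=
    lt_of_le_of_ne hle (fun h => hx (h ▸ LinearMap.mem_ker.2 (h2 x)))
  have h3 := Submodule.finrank_lt_finrank_of_lt hlt
  have h4 := Submodule.finrank_le (LinearMap.ker φ)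
  have h5 : LinearMap.ker φ = ⊤ := Submodule.eq_top_of_finrank_eq (by omega)
  have h6 : φ x = 0 := LinearMap.mem_ker.1 (h5 ▸ Submodule.mem_top)
  exact hx (h6 ▸ N.zero_mem)

/-- a proper subspace of a plane is contained in a given line or meets it trivially -/
theorem la_dichotomy (N V₁ : Submodule k V) (hN : Module.finrank k N = 1)
    (hV : Module.finrank k V = 2) (hV₁ : V₁ ≠ ⊤) : V₁ ≤ N ∨ V₁ ⊓ N = ⊥ := by
  have : Module.Finite k V := Module.finite_of_finrank_pos (by omega)
  by_cases h : V₁ ⊓ N = ⊥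
  · exact Or.inr h
  left
  have h1 : 0 < Module.finrank k (V₁ ⊓ N : Submodule k V) := by
    rw [Module.finrank_pos_iff]
    exact Submodule.nontrivial_iff_ne_bot.2 h
  have h2 : V₁ ⊓ N = N := Submodule.eq_of_le_of_finrank_le inf_le_right (by omega)
  have h3 : N ≤ V₁ := h2 ▸ inf_le_left
  have h4 := Submodule.finrank_lt hV₁
  have h5 : N = V₁ := Submodule.eq_of_le_of_finrank_le h3 (by omega)
  exact h5 ▸ le_rfl

end Fermat.Agent.S13
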