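import Fermat.Agent.S14.G1

/-!
# S13 (M2): an open normal subgroup of `Gal(ℚ̄/ℚ)` containing an inertia group at every prime
is everything (Minkowski)
-/

set_option autoImplicit false

namespace Fermat.Agent.S13

open Fermat.Agent.S54 Fermat.Agent.S14
open scoped Pointwise NumberField

local notation "Qb" => AlgebraicClosure ℚ
local notation "GalQ" => (AlgebraicClosure ℚ ≃ₐ[ℚ] AlgebraicClosure ℚ)

theorem minkowski (H : Subgroup GalQ) [H.Normal] (hH : IsOpen (H : Set GalQ))
    (hram : ∀ q : ℕ, q.Prime → ∃ A : ValuationSubring Qb, (q : Qb) ∈ A.nonunits ∧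
      A.inertiaSubgroupIn ℚ ≤ H) : H = ⊤ := by
  by_contra hne
  have hcl : IsClosed (H : Set GalQ) := H.isClosed_of_isOpen hH
  set F : IntermediateField ℚ Qb := IntermediateField.fixedField H with hF
  have hfix : F.fixingSubgroup = H := InfiniteGalois.fixingSubgroup_fixedField ⟨H, hcl⟩
  have hfd : FiniteDimensional ℚ F :=
    (InfiniteGalois.isOpen_iff_finite F).mp (by rw [hfix]; exact hH)
  have hgal : IsGalois ℚ F :=
    (InfiniteGalois.normal_iff_isGalois F).mp (by rw [hfix]; infer_instance)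
  have hrank : 1 < Module.finrank ℚ F := by
    by_contra h
    have h1 : Module.finrank ℚ F = 1 := by
      have := Module.finrank_pos (R := ℚ) (M := F)
      omega
    have h2 : F = ⊥ := IntermediateField.finrank_eq_one_iff.mp h1
    apply hne
    rw [← hfix, h2]
    exact IntermediateField.fixingSubgroup_bot
  have : NumberField F := { to_charZero := inferInstance, to_finiteDimensional := hfd }
  obtain ⟨q, hq, hP⟩ :=
    NumberField.exists_not_isUnramifiedAt_int_of_isGalois (K := F) (𝒪 := 𝓞 F) hrank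
  obtain ⟨A, hA, hI⟩ := hram q hq
  have hint : ∀ x : 𝓞 F, IsIntegral ℤ (((x : F) : Qb)) := fun x =>
    (x.2 : IsIntegral ℤ (x : F)).map (IsScalarTower.toAlgHom ℤ F Qb)
  let ι : 𝓞 F →+* A.toSubring := ((algebraMap F Qb).comp (algebraMap (𝓞 F) F)).codRestrict
    A.toSubring (fun x => mem_of_isIntegral_int A (hint x))
  let P : Ideal (𝓞 F) := (IsLocalRing.maximalIdeal A).comap ι
  have hPprime : P.IsPrime := Ideal.comap_isPrime _ _
  have hmemP : ∀ x : 𝓞 F, x ∈ P ↔ (((x : F) : Qb)) ∈ A.nonunits := by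
    intro x
    rw [Ideal.mem_comap, ← ValuationSubring.coe_mem_nonunits_iff]
    rfl
  have hqP : ((q : ℕ) : 𝓞 F) ∈ P := by
    rw [hmemP]
    simpa using hA
  have hnr := hP P hPprime hqP
  let : MulSemiringAction Gal(F/ℚ) (𝓞 F) := IsIntegralClosure.MulSemiringAction ℤ ℚ F (𝓞 F)
  have := IsGaloisGroup.of_isFractionRing Gal(F/ℚ) ℤ (𝓞 F) ℚ F
  rw [← Ideal.ramificationIdx_eq_one_iff,
    ← Ideal.ramificationIdxIn_eq_ramificationIdx (P.under ℤ) _ Gal(F/ℚ),
    ← Ideal.card_inertia_eq_ramificationIdxIn (G := Gal(F/ℚ)) (P.under ℤ) P] at hnr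
  -- a nontrivial element of the inertia group
  obtain ⟨t, ht, ht1⟩ : ∃ t : Gal(F/ℚ), t ∈ P.inertia Gal(F/ℚ) ∧ t ≠ 1 := by
    by_contra hcon
    push Not at hcon
    apply hnr
    have : P.inertia Gal(F/ℚ) = ⊥ := (Subgroup.eq_bot_iff_forall _).mpr hcon
    rw [this]
    exact Subgroup.card_bot
  obtain ⟨σ, hσ⟩ := AlgEquiv.restrictNormalHom_surjective (F := ℚ) (K₁ := F) Qb t
  have hσF : ∀ x : F, σ (x : Qb) = ((t x : F) : Qb) := by
    intro x
    rw [← hσ]
    exact (AlgEquiv.restrictNormal_commutes σ F x).symm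
  obtain ⟨τ, hτ, hτσ⟩ := g1_exists_mul_mem_inertia H A hq hA hcl σ (by
    intro x hx hxH
    have hxF : x ∈ F := by
      rw [hF, IntermediateField.mem_fixedField_iff]
      exact hxH
    have hxi : IsIntegral ℤ (⟨x, hxF⟩ : F) := by
      have : IsIntegral ℤ (algebraMap F Qb ⟨x, hxF⟩) := hx
      exact (isIntegral_algebraMap_iff (algebraMap F Qb).injective).mp this
    let x' : 𝓞 F := ⟨⟨x, hxF⟩, hxi⟩
    have h1 := (hmemP _).mp (ht x')
    have h2 : (((t • x' - x' : 𝓞 F) : F) : Qb) = σ x - x := by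
      have h3 : ((t • x' : 𝓞 F) : F) = t (x' : F) := algebraMap_galRestrict_apply ℤ t x'
      have h4 : ((t • x' - x' : 𝓞 F) : F) = t (x' : F) - (x' : F) := by
        rw [← h3]
        rfl
      rw [h4, AddSubgroupClass.coe_sub, ← hσF]
      rfl
    rw [h2] at h1
    exact h1)
  have hσH : σ ∈ H := by
    have h1 := hI hτσ
    have h2 := H.mul_mem (H.inv_mem hτ) h1
    simpa using h2
  apply ht1
  rw [← hfix] at hσH
  refine AlgEquiv.ext fun x => ?_
  have h1 := hσF x
  rw [(IntermediateField.mem_fixingSubgroup_iff F σ).mp hσH x x.2] at h1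
  exact (Subtype.ext h1).symm

end Fermat.Agent.S13

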