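import Fermat.Agent.S05
import Fermat.Agent.S13.LadderFrey
import Fermat.Agent.S13.FreyP
import Fermat.Agent.S13.Mink
import Fermat.Agent.S13.LinAlg
import Fermat.Prelude.Def_FLTPrelim_CofixedLine

/-!
# S13 (M5): assembly
-/

set_option autoImplicit false

namespace Fermat.Agent.S13

open Fermat.Agent.S05 Fermat.Agent.S54
open WeierstrassCurve WeierstrassCurve.Affine WeierstrassCurve.Affine.Point

local notation "Kb" => AlgebraicClosure ℚ
local notation "GalQ" => (AlgebraicClosure ℚ ≃ₐ[ℚ] AlgebraicClosure ℚ)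

variable (P : FreyPackage)

/-- the action of `σ` on `V`, as a linear map -/
noncomputable def actLin (σ : GalQ) : FreyV P →ₗ[ZMod P.p] FreyV P :=
  (DistribSMul.toAddMonoidHom (FreyV P) σ).toZModLinearMap P.p

lemma actLin_apply (σ : GalQ) (x : FreyV P) : actLin P σ x = σ • x := rfl

lemma coe_smul_freyV (σ : GalQ) (x : FreyV P) :
    ((σ • x : FreyV P) : (P.freyCurve⁄Kb).Point) = freyS P.freyCurve σ x.1 := rfl

/-- the elements acting trivially on `V / N` -/
def subH2 (N : Submodule (ZMod P.p) (FreyV P)) : Subgroup GalQ where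
  carrier := {σ | ∀ x : FreyV P, σ • x - x ∈ N}
  one_mem' := by
    intro x
    rw [one_smul, sub_self]
    exact N.zero_mem
  mul_mem' := by
    intro σ τ hσ hτ x
    have := N.add_mem (hσ (τ • x)) (hτ x)
    rwa [sub_add_sub_cancel, ← mul_smul] at this
  inv_mem' := by
    intro σ hσ x
    have := N.neg_mem (hσ (σ⁻¹ • x))
    rwa [smul_inv_smul, neg_sub] at this

/-- the elements acting trivially on `N` -/
def subH1 (N : Submodule (ZMod P.p) (FreyV P)) : Subgroup GalQ where
  carrier := {σ | ∀ x ∈ N, σ • x = x}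
  one_mem' := fun x _ => one_smul _ x
  mul_mem' := by
    intro σ τ hσ hτ x hx
    rw [mul_smul, hτ x hx, hσ x hx]
  inv_mem' := by
    intro σ hσ x hx
    rw [inv_smul_eq_iff, hσ x hx]

lemma subH2_normal (N : Submodule (ZMod P.p) (FreyV P)) (hN : IsGaloisStable ℚ N) :
    (subH2 P N).Normal := by
  refine ⟨fun σ hσ g x => ?_⟩
  have h1 := hN g _ (hσ (g⁻¹ • x))
  rwa [smul_sub, smul_inv_smul, ← mul_smul, ← mul_smul] at h1

lemma subH1_normal (N : Submodule (ZMod P.p) (FreyV P)) (hN : IsGaloisStable ℚ N) :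
    (subH1 P N).Normal := by
  refine ⟨fun σ hσ g x hx => ?_⟩
  have h1 := hσ _ (hN g⁻¹ x hx)
  rw [mul_smul, mul_smul, h1, smul_inv_smul]

lemma stab_point_open (Q : (P.freyCurve⁄Kb).Point) :
    IsOpen ((MulAction.stabilizer GalQ Q : Subgroup GalQ) : Set GalQ) := by
  rcases Q with _ | ⟨x, y, h⟩
  · have : (MulAction.stabilizer GalQ (Point.zero : (P.freyCurve⁄Kb).Point)) = ⊤ := by
      rw [eq_top_iff]
      intro σ _
      rfl
    rw [this]
    exact isOpen_univ
  · refine Subgroup.isOpen_mono (H₁ := MulAction.stabilizer GalQ x ⊓ MulAction.stabilizer GalQ y)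
      ?_ ?_
    · rintro σ ⟨hx, hy⟩
      rw [MulAction.mem_stabilizer_iff]
      have hx' : σ x = x := hx
      have hy' : σ y = y := hy
      rw [algEquiv_smul_def, Point.map_some]
      rw [Point.some.injEq]
      exact ⟨hx', hy'⟩
    · rw [Subgroup.coe_inf]
      exact (stabilizer_isOpen_of_isIntegral (K := ℚ) x).inter
        (stabilizer_isOpen_of_isIntegral (K := ℚ) y)

/-- the elements acting trivially on `V` form an open subgroup -/
lemma subU_open : IsOpen ((⨅ x : FreyV P, MulAction.stabilizer GalQ x : Subgroup GalQ) :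
    Set GalQ) := by
  rw [Subgroup.coe_iInf]
  refine isOpen_iInter_of_finite fun x => ?_
  have : (MulAction.stabilizer GalQ x : Set GalQ) =
      (MulAction.stabilizer GalQ (x : (P.freyCurve⁄Kb).Point) : Set GalQ) := by
    ext σ
    simp only [SetLike.mem_coe, MulAction.mem_stabilizer_iff, Subtype.ext_iff]
    rfl
  rw [this]
  exact stab_point_open P _

lemma subH2_open (N : Submodule (ZMod P.p) (FreyV P)) : IsOpen (subH2 P N : Set GalQ) := by
  refine Subgroup.isOpen_mono ?_ (subU_open P)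
  intro σ hσ x
  rw [Subgroup.mem_iInf] at hσ
  have : σ • x = x := hσ x
  rw [this, sub_self]
  exact N.zero_mem

lemma subH1_open (N : Submodule (ZMod P.p) (FreyV P)) : IsOpen (subH1 P N : Set GalQ) := by
  refine Subgroup.isOpen_mono ?_ (subU_open P)
  intro σ hσ x _
  rw [Subgroup.mem_iInf] at hσ
  exact hσ x

/-- the kernel of reduction, as a subspace of `V` -/
noncomputable def formalSub (A : ValuationSubring Kb) (hv2 : A.valuation (2 : Kb) = 1) :
    Submodule (ZMod P.p) (FreyV P) :=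
  AddSubgroup.toZModSubmodule P.p
    { carrier := {x | Formal A (xi (P.freyCurve⁄Kb) 0) x.1}
      zero_mem' := Or.inl rfl
      add_mem' := fun hx hy =>
        Formal.add (frey_kline0 P) (frey_coeff_mem P A hv2).1 (frey_coeff_mem P A hv2).2 hx hy
      neg_mem' := fun hx => Formal.neg (frey_kline0 P) hx }

lemma mem_formalSub (A : ValuationSubring Kb) (hv2 : A.valuation (2 : Kb) = 1) (x : FreyV P) :
    x ∈ formalSub P A hv2 ↔ Formal A (xi (P.freyCurve⁄Kb) 0) x.1 := Iff.rfl

theorem frey_cofixed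
    (hred : ¬ GaloisRepIsIrreducible (K := AlgebraicClosure ℚ) ℚ P.freyCurve P.p)
    (hsuper : ∀ N : Submodule (ZMod P.p) (FreyV P), IsGaloisStable ℚ N → N ≠ ⊥ → N ≠ ⊤ →
      ∀ A : ValuationSubring Kb, (P.p : Kb) ∈ A.nonunits →
        ∃ Q : FreyV P, Q ≠ 0 ∧ xi (P.freyCurve⁄Kb) 0 Q.1 ∈ A)
    (hunip : ∀ A : ValuationSubring Kb, (2 : Kb) ∈ A.nonunits → ∀ σ : GalQ,
      σ ∈ A.inertiaSubgroupIn ℚ → ∀ Q : (P.freyCurve⁄Kb).Point, P.p • Q = 0 →
        freyS P.freyCurve σ (freyS P.freyCurve σ Q - Q) = freyS P.freyCurve σ Q - Q)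
    (hnorat : ∀ Q : (P.freyCurve⁄Kb).Point, Q ≠ 0 → P.p • Q = 0 →
      (∀ σ : GalQ, freyS P.freyCurve σ Q = Q) → False) :
    HasGaloisStableCofixedLine (K := AlgebraicClosure ℚ) ℚ P.freyCurve P.p := by
  obtain ⟨N, hN, hbot, htop, hN1, hV2⟩ := frey_exists_stable_line P hred
  obtain ⟨A₀, hA₀⟩ := exists_valuationSubring_liesOver P.p P.pp
  have hp2 : P.p ≠ 2 := by have := P.hp5; omega
  have hv2 := core_val_two A₀ P.pp hp2 hA₀
  have hV₁top : formalSub P A₀ hv2 ≠ ⊤ := by
    intro h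
    obtain ⟨Q, hQ0, hQA⟩ := hsuper N hN hbot htop A₀ hA₀
    have h1 : Q ∈ formalSub P A₀ hv2 := h ▸ Submodule.mem_top
    rcases (mem_formalSub P A₀ hv2 Q).1 h1 with h2 | h2
    · exact hQ0 (Subtype.ext h2)
    · exact h2 hQA
  -- inertia at `2`
  have htwo : ∀ A : ValuationSubring Kb, (2 : Kb) ∈ A.nonunits → ∀ σ : GalQ,
      σ ∈ A.inertiaSubgroupIn ℚ → (∀ x ∈ N, σ • x = x) ∧ ∀ x : FreyV P, σ • x - x ∈ N := by
    intro A hA σ hσ
    have h1 := la_nilpotent N hN1 hV2 (actLin P σ - LinearMap.id) (by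
      intro x
      simp only [LinearMap.sub_apply, LinearMap.id_apply, actLin_apply]
      rw [sub_eq_zero]
      apply Subtype.ext
      exact hunip A hA σ hσ x.1 ((freyV_mem_iff P _).1 x.2)) (by
      intro x hx
      simp only [LinearMap.sub_apply, LinearMap.id_apply, actLin_apply]
      exact N.sub_mem (hN σ x hx) hx)
    simp only [LinearMap.sub_apply, LinearMap.id_apply, actLin_apply] at h1
    exact ⟨fun x hx => sub_eq_zero.1 (h1.1 x hx), h1.2⟩
  -- inertia at `p`
  have hatp : ∀ σ : GalQ, σ ∈ A₀.inertiaSubgroupIn ℚ → ∀ x : FreyV P,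
      σ • x - x ∈ formalSub P A₀ hv2 := by
    intro σ hσ x
    rw [mem_formalSub]
    exact frey_p_formal P A₀ hA₀ σ hσ x.1 ((freyV_mem_iff P _).1 x.2)
  -- the other primes
  have hother : ∀ q : ℕ, q.Prime → q ≠ 2 → q ≠ P.p → ∀ A : ValuationSubring Kb,
      (q : Kb) ∈ A.nonunits → ∀ σ : GalQ, σ ∈ A.inertiaSubgroupIn ℚ → ∀ x : FreyV P,
      σ • x = x := fun q hq hq2 hqp A hA σ hσ x =>
    Fermat.Agent.S05.result P hq hq2 hqp A hA σ hσ x
  rcases la_dichotomy N (formalSub P A₀ hv2) hN1 hV2 hV₁top with hle | hdisj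
  · refine ⟨N, hN, hbot, htop, ?_⟩
    have := subH2_normal P N hN
    have htopH : subH2 P N = ⊤ := by
      refine minkowski _ (subH2_open P N) fun q hq => ?_
      by_cases hq2 : q = 2
      · subst hq2
        obtain ⟨A, hA⟩ := exists_valuationSubring_liesOver 2 hq
        have hA' : (2 : Kb) ∈ A.nonunits := by exact_mod_cast hA
        exact ⟨A, hA, fun σ hσ => (htwo A hA' σ hσ).2⟩
      by_cases hqp : q = P.p
      · subst hqp
        exact ⟨A₀, hA₀, fun σ hσ x => hle (hatp σ hσ x)⟩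
      · obtain ⟨A, hA⟩ := exists_valuationSubring_liesOver q hq
        refine ⟨A, hA, fun σ hσ x => ?_⟩
        rw [hother q hq hq2 hqp A hA σ hσ x, sub_self]
        exact N.zero_mem
    intro σ x
    have : σ ∈ subH2 P N := htopH ▸ Subgroup.mem_top σ
    exact this x
  · exfalso
    have := subH1_normal P N hN
    have htopH : subH1 P N = ⊤ := by
      refine minkowski _ (subH1_open P N) fun q hq => ?_
      by_cases hq2 : q = 2
      · subst hq2
        obtain ⟨A, hA⟩ := exists_valuationSubring_liesOver 2 hq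
        have hA' : (2 : Kb) ∈ A.nonunits := by exact_mod_cast hA
        exact ⟨A, hA, fun σ hσ => (htwo A hA' σ hσ).1⟩
      by_cases hqp : q = P.p
      · subst hqp
        refine ⟨A₀, hA₀, fun σ hσ x hx => ?_⟩
        have h1 : σ • x - x ∈ formalSub P A₀ hv2 ⊓ N :=
          ⟨hatp σ hσ x, N.sub_mem (hN σ x hx) hx⟩
        rw [hdisj, Submodule.mem_bot] at h1
        exact sub_eq_zero.1 h1
      · obtain ⟨A, hA⟩ := exists_valuationSubring_liesOver q hq
        exact ⟨A, hA, fun σ hσ x _ => hother q hq hq2 hqp A hA σ hσ x⟩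
    obtain ⟨x, hxN, hx0⟩ := Submodule.exists_mem_ne_zero_of_ne_bot hbot
    refine hnorat x.1 (fun h => hx0 (Subtype.ext h)) ((freyV_mem_iff P _).1 x.2) fun σ => ?_
    have : σ ∈ subH1 P N := htopH ▸ Subgroup.mem_top σ
    exact congrArg Subtype.val (this x hxN)

end Fermat.Agent.S13
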