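import Fermat.Agent.S13.Two
import Fermat.Agent.S13.LadderFrey
import Fermat.Agent.S54.Frobenius

/-!
# S13 (M3): the Frey curve at `2`
-/

set_option autoImplicit false

namespace Fermat.Agent.S13

open WeierstrassCurve WeierstrassCurve.Affine WeierstrassCurve.Affine.Point
open Fermat.Agent.S05

local notation "Kb" => AlgebraicClosure ℚ

section arith

/-- `a ^ p ≡ 3 mod 4` -/
lemma freyTwo_a (P : FreyPackage) : ∃ m : ℤ, P.a ^ P.p = 4 * m + 3 := by
  have h1 : ((P.a ^ P.p : ℤ) : ZMod 4) = 3 := by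
    push_cast
    rw [P.ha4]
    obtain ⟨k, hk⟩ := P.hp_odd
    rw [hk, pow_succ, pow_mul]
    have : (3 : ZMod 4) ^ 2 = 1 := by decide
    rw [this, one_pow, one_mul]
  have h2 : ((P.a ^ P.p - 3 : ℤ) : ZMod 4) = 0 := by
    push_cast
    push_cast at h1
    rw [h1, sub_self]
  rw [ZMod.intCast_zmod_eq_zero_iff_dvd] at h2
  obtain ⟨m, hm⟩ := h2
  exact ⟨m, by push_cast at hm; linarith⟩

/-- `32 ∣ b ^ p` -/
lemma freyTwo_b (P : FreyPackage) : ∃ m : ℤ, P.b ^ P.p = 32 * m := by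
  have h2 : (2 : ℤ) ∣ P.b := by
    have := P.hb2
    rw [ZMod.intCast_zmod_eq_zero_iff_dvd] at this
    exact_mod_cast this
  have h3 : (2 : ℤ) ^ 5 ∣ P.b ^ P.p :=
    (pow_dvd_pow 2 P.hp5).trans (pow_dvd_pow_of_dvd h2 P.p)
  obtain ⟨m, hm⟩ := h3
  exact ⟨m, by rw [hm]; norm_num⟩

end arith

section val

variable {K : Type*} [Field K]

/-- the valuation of a non zero integer at a place above `2` is a power of `|2|` -/
lemma freyTwo_val_int (A : ValuationSubring K) (h2A : ((2 : ℕ) : K) ∈ A.nonunits) (n : ℤ)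
    (hn : n ≠ 0) : ∃ i : ℕ, A.valuation (n : K) = A.valuation 2 ^ i := by
  have hfin : FiniteMultiplicity (2 : ℤ) n := Int.finiteMultiplicity_iff.2 ⟨by decide, hn⟩
  obtain ⟨c, hc, hndvd⟩ := hfin.exists_eq_pow_mul_and_not_dvd
  refine ⟨multiplicity (2 : ℤ) n, ?_⟩
  have h1 : A.valuation (c : K) = 1 := core_val_int_eq A Nat.prime_two h2A (by exact_mod_cast hndvd)
  conv_lhs => rw [hc]
  push_cast
  rw [map_mul, map_pow, h1, mul_one]

end val

section main

variable (P : FreyPackage) (A : ValuationSubring Kb) (hA : (2 : Kb) ∈ A.nonunits)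

lemma freyTwo_ha : (frB P - frA P) / 4 - 1 / 4 ∈ A := by
  obtain ⟨m, hm⟩ := freyTwo_a P
  obtain ⟨n, hn⟩ := freyTwo_b P
  have e : (frB P - frA P) / 4 - 1 / 4 = ((8 * n - m - 1 : ℤ) : Kb) := by
    rw [frA, frB, hm, hn]
    push_cast
    ring
  rw [e]
  exact core_int_mem A _

include hA in
lemma freyTwo_hb : A.valuation (-(frA P * frB P) / 16) < 1 := by
  obtain ⟨n, hn⟩ := freyTwo_b P
  have e : -(frA P * frB P) / 16 = ((2 * (-(P.a ^ P.p) * n) : ℤ) : Kb) := by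
    rw [frA, frB, hn]
    push_cast
    ring
  rw [e]
  exact core_val_int_lt A (q := 2) (by simpa using hA) (by simp)

include hA in
lemma freyTwo_hbv (r : ℚ) :
    A.valuation (r : Kb) ^ P.p ≠ A.valuation (-(frA P * frB P) / 16) ^ 2 := by
  have h2A : ((2 : ℕ) : Kb) ∈ A.nonunits := by simpa using hA
  have hv2 : A.valuation (2 : Kb) < 1 := (A.mem_nonunits_iff).1 hA
  have hv20 : 0 < A.valuation (2 : Kb) := (Valuation.pos_iff _).2 two_ne_zero
  intro heq
  by_cases hr : r = 0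
  · rw [hr, Rat.cast_zero, _root_.map_zero, zero_pow P.hp0] at heq
    exact frey_b_ne_zero P ((Valuation.zero_iff _).1 (pow_eq_zero_iff two_ne_zero |>.1 heq.symm))
  obtain ⟨i, hi⟩ := freyTwo_val_int A h2A r.num (Rat.num_ne_zero.2 hr)
  obtain ⟨k, hk⟩ := freyTwo_val_int A h2A (r.den : ℤ) (by exact_mod_cast r.den_nz)
  obtain ⟨w, hw⟩ := freyTwo_val_int A h2A P.b P.hb0
  have hva : A.valuation (frA P) = 1 := by
    rw [frA]
    apply core_val_int_eq A Nat.prime_two h2A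
    obtain ⟨m, hm⟩ := freyTwo_a P
    rw [hm]
    push_cast
    omega
  have hvb : A.valuation (frB P) = A.valuation 2 ^ (w * P.p) := by
    rw [frB]
    push_cast
    rw [map_pow, hw, pow_mul]
  have hv16 : A.valuation (16 : Kb) = A.valuation 2 ^ 4 := by
    rw [← map_pow]
    norm_num
  have hcast : (r : Kb) = (r.num : Kb) / ((r.den : ℤ) : Kb) := by
    rw [Rat.cast_def]
    simp
  rw [hcast, map_div₀, hi, hk, map_div₀, Valuation.map_neg, map_mul, hva, one_mul, hvb, hv16,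
    div_pow, div_pow, ← pow_mul, ← pow_mul, ← pow_mul, ← pow_mul,
    div_eq_div_iff (pow_ne_zero _ hv20.ne') (pow_ne_zero _ hv20.ne'), ← pow_add, ← pow_add] at heq
  have hinj := (pow_right_strictAnti₀ hv20 hv2).injective heq
  have hdvd : P.p ∣ 8 := by
    have h1 : P.p ∣ i * P.p + 4 * 2 := by
      rw [hinj]
      exact Dvd.intro_left (w * 2 + k) (by ring)
    exact (Nat.dvd_add_right (Dvd.intro_left i rfl)).1 h1
  have h8 : P.p ∣ 2 ^ 3 := by simpa using hdvd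
  have := (Nat.prime_dvd_prime_iff_eq P.pp Nat.prime_two).1 (P.pp.dvd_of_dvd_pow h8)
  have := P.hp5
  omega

theorem frey_two_unipotent (P : FreyPackage) (A : ValuationSubring Kb) (hA : (2 : Kb) ∈ A.nonunits)
    (σ : Kb ≃ₐ[ℚ] Kb) (hσ : σ ∈ A.inertiaSubgroupIn ℚ) (Q : (P.freyCurve⁄Kb).Point)
    (hQ : P.p • Q = 0) :
    freyS P.freyCurve σ (freyS P.freyCurve σ Q - Q) = freyS P.freyCurve σ Q - Q := by
  have hσb : (σ : Kb →+* Kb) (-(frA P * frB P) / 16) = -(frA P * frB P) / 16 := by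
    rw [frA, frB, map_div₀, map_neg, map_mul, map_intCast, map_intCast, map_ofNat]
  exact two_unipotent A (frey_kline P) P.pp P.hp5 ((A.mem_nonunits_iff).1 hA) two_ne_zero
    (freyTwo_ha P A) (freyTwo_hb P A hA) (frey_b_ne_zero P) (σ : Kb →+* Kb)
    (freyS P.freyCurve σ) (frey_inertia A σ hσ) (freyS_eq_zero _ σ)
    (freyS_xi _ σ 0 (_root_.map_zero σ)) (freyS_eta _ σ) hσb Q hQ

theorem frey_no_rational (P : FreyPackage) (Q : (P.freyCurve⁄Kb).Point) (hQ0 : Q ≠ 0)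
    (hQ : P.p • Q = 0) (hfix : ∀ σ : Kb ≃ₐ[ℚ] Kb, freyS P.freyCurve σ Q = Q) : False := by
  obtain ⟨A, hA'⟩ := Fermat.Agent.S54.exists_valuationSubring_liesOver 2 Nat.prime_two
  have hA : (2 : Kb) ∈ A.nonunits := by simpa using hA'
  have hrat : ∀ k : ℕ, ∃ r : ℚ, xi (P.freyCurve⁄Kb) 0 (k • Q) = (r : Kb) := by
    intro k
    have h1 : xi (P.freyCurve⁄Kb) 0 (k • Q) ∈ Set.range (algebraMap ℚ Kb) := by
      rw [InfiniteGalois.mem_range_algebraMap_iff_fixed]
      intro σ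
      by_cases hk : k • Q = 0
      · rw [hk]
        exact _root_.map_zero σ
      · rw [← freyS_xi _ σ 0 (_root_.map_zero σ) _ hk, map_nsmul, hfix σ]
    obtain ⟨r, hr⟩ := h1
    exact ⟨r, by rw [← hr]; simp⟩
  exact two_no_rational A (frey_kline P) P.pp P.hp5 ((A.mem_nonunits_iff).1 hA) two_ne_zero
    (freyTwo_ha P A) (freyTwo_hb P A hA) (frey_b_ne_zero P) Q hQ0 hQ hrat
    (freyTwo_hbv P A hA)

end main

end Fermat.Agent.S13
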