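import Mathlib
import Fermat.Agent.S05.Core

/-!
# S13 (M4): excluding the supersingular case
-/

set_option autoImplicit false

namespace Fermat.Agent.S13

open Polynomial Fermat.Agent.S05

variable {K : Type*} [Field K]

/-- a rational number of absolute value `> 1` has absolute value at least `1 / |p|` -/
lemma super_rat [CharZero K] (A : ValuationSubring K) {p : ℕ} (hp : p.Prime)
    (hpA : (p : K) ∈ A.nonunits) (r : ℚ) (hr : 1 < A.valuation (r : K)) :
    1 ≤ A.valuation (p : K) * A.valuation (r : K) := by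
  have hden : (r.den : K) ≠ 0 := by exact_mod_cast r.den_nz
  have hr' : (r : K) = (r.num : K) / (r.den : K) := by
    conv_lhs => rw [← Rat.num_div_den r]
    push_cast
    rfl
  have hvden0 : A.valuation (r.den : K) ≠ 0 := (Valuation.ne_zero_iff _).2 hden
  -- `p` divides the denominator
  have hpd : (p : ℤ) ∣ (r.den : ℤ) := by
    by_contra hnd
    have h1 := core_val_int_eq A hp hpA hnd
    have h2 := core_val_int_le A r.num
    rw [hr', map_div₀] at hr
    have h3 : A.valuation (r.den : K) = 1 := by exact_mod_cast h1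
    rw [h3, div_one] at hr
    exact absurd hr (not_lt.2 h2)
  -- hence not the numerator
  have hpn : ¬ (p : ℤ) ∣ r.num := by
    intro h
    have h1 : p ∣ r.num.natAbs := Int.natCast_dvd.1 h
    have h2 : p ∣ r.den := by exact_mod_cast hpd
    have h3 := Nat.dvd_gcd h1 h2
    rw [r.reduced] at h3
    exact hp.one_lt.ne' (Nat.dvd_one.1 h3)
  have hnum := core_val_int_eq A hp hpA hpn
  obtain ⟨c, hc⟩ := hpd
  have hc' : (r.den : K) = (p : K) * (c : K) := by exact_mod_cast congrArg (Int.cast : ℤ → K) hc
  have hvc := core_val_int_le A c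
  rw [hr', map_div₀, hnum, hc', map_mul]
  have hp0 : A.valuation (p : K) ≠ 0 :=
    (Valuation.ne_zero_iff _).2 (by exact_mod_cast hp.ne_zero)
  have hc0 : A.valuation (c : K) ≠ 0 := by
    intro h0
    apply hvden0
    rw [hc', map_mul, h0, mul_zero]
  rw [one_div, mul_inv, ← mul_assoc, mul_inv_cancel₀ hp0, one_mul]
  exact (one_le_inv₀ (zero_lt_iff.2 hc0)).2 hvc

theorem super_false [CharZero K] [IsAlgClosed K] (A : ValuationSubring K) (W : ℤ[X]) {p : ℕ}
    (hp : p.Prime) (hpA : (p : K) ∈ A.nonunits) (hW : W.leadingCoeff = p)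
    (S : Finset K) (hS : ∀ x ∈ S, aeval x W = 0 ∧ x ≠ 0) (hSne : S.Nonempty)
    (hSrat : ∃ r : ℚ, ∏ x ∈ S, x = (r : K))
    (x₁ : K) (hx₁ : aeval x₁ W = 0) (hx₁0 : x₁ ≠ 0) (hx₁S : x₁ ∉ S)
    (hall : ∀ x : K, x ≠ 0 → aeval x W = 0 → x ∉ A) : False := by
  classical
  have hinj : Function.Injective (Int.castRingHom K) := RingHom.injective_int _
  set F : K[X] := W.map (Int.castRingHom K) with hF
  have hW0 : W ≠ 0 := by
    intro h0
    rw [h0, leadingCoeff_zero] at hW
    exact hp.ne_zero (by exact_mod_cast hW.symm)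
  have hF0 : F ≠ 0 := (Polynomial.map_ne_zero_iff hinj).2 hW0
  have hlead : F.leadingCoeff = (p : K) := by
    rw [hF, leadingCoeff_map_of_injective hinj, hW]
    simp
  have hroot : ∀ x : K, x ∈ F.roots ↔ aeval x W = 0 := by
    intro x
    rw [mem_roots hF0, IsRoot.def, hF, eval_map]
    rfl
  have hbig : ∀ x : K, x ≠ 0 → aeval x W = 0 → 1 < A.valuation x := fun x hx0 hx =>
    not_le.1 fun h => hall x hx0 hx ((A.valuation_le_one_iff x).1 h)
  set k : ℕ := F.roots.count 0 with hk
  set R1 : Multiset K := F.roots.filter (fun x => ¬ x = 0) with hR1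
  have hsplitR : F.roots = Multiset.replicate k 0 + R1 := by
    rw [hk, ← Multiset.filter_eq', hR1, Multiset.filter_add_not]
  have hfac : F = C (p : K) * (X ^ k * (R1.map (fun ρ => X - C ρ)).prod) := by
    conv_lhs => rw [(IsAlgClosed.splits F).eq_prod_roots, hlead, hsplitR]
    rw [Multiset.map_add, Multiset.prod_add, Multiset.map_replicate, Multiset.prod_replicate, C_0,
      sub_zero]
  have hcoeff : F.coeff k = (p : K) * (R1.map (fun ρ => -ρ)).prod := by
    conv_lhs => rw [hfac]
    have e : ∀ G : K[X], (X ^ k * G).coeff k = G.coeff 0 := fun G => by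
      have := coeff_X_pow_mul G k 0
      rwa [zero_add] at this
    rw [coeff_C_mul, e, coeff_zero_eq_eval_zero, eval_multiset_prod, Multiset.map_map]
    congr 2
    refine Multiset.map_congr rfl fun ρ _ => ?_
    simp
  have hle : A.valuation (F.coeff k) ≤ 1 := by
    rw [hF, coeff_map]
    exact core_val_int_le A _
  have hval : A.valuation (F.coeff k) = A.valuation (p : K) * (R1.map A.valuation).prod := by
    rw [hcoeff, map_mul, map_multiset_prod, Multiset.map_map]
    congr 2
    refine Multiset.map_congr rfl fun ρ _ => ?_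
    simp
  -- the sub-multiset
  set T : Finset K := insert x₁ S with hT
  have hTle : T.val ≤ R1 := by
    rw [Multiset.le_iff_subset T.nodup]
    intro x hx
    rw [Finset.mem_val, hT, Finset.mem_insert] at hx
    rw [hR1, Multiset.mem_filter, hroot]
    rcases hx with rfl | hx
    · exact ⟨hx₁, hx₁0⟩
    · exact hS x hx
  have hR1eq : R1 = T.val + (R1 - T.val) := (add_tsub_cancel_of_le hTle).symm
  have hrest : 1 ≤ ((R1 - T.val).map A.valuation).prod := by
    refine Multiset.one_le_prod_of_one_le fun y hy => ?_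
    obtain ⟨x, hx, rfl⟩ := Multiset.mem_map.1 hy
    have hx' : x ∈ R1 := Multiset.mem_of_le (Multiset.sub_le_self _ _) hx
    rw [hR1, Multiset.mem_filter, hroot] at hx'
    exact (hbig x hx'.2 hx'.1).le
  obtain ⟨r, hr⟩ := hSrat
  have hTprod : (T.val.map A.valuation).prod = A.valuation x₁ * A.valuation (r : K) := by
    have : (T.val.map A.valuation).prod = ∏ x ∈ T, A.valuation x := rfl
    rw [this, hT, Finset.prod_insert hx₁S, ← hr, map_prod]
  have hrbig : 1 < A.valuation (r : K) := by
    obtain ⟨x0, hx0⟩ := hSne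
    rw [← hr, map_prod, ← Finset.mul_prod_erase S _ hx0]
    have h1 : 1 < A.valuation x0 := hbig x0 (hS x0 hx0).2 (hS x0 hx0).1
    have h2 : 1 ≤ ∏ x ∈ S.erase x0, A.valuation x :=
      Finset.one_le_prod' fun x hx =>
        (hbig x (hS x (Finset.mem_of_mem_erase hx)).2 (hS x (Finset.mem_of_mem_erase hx)).1).le
    calc 1 < A.valuation x0 := h1
      _ = A.valuation x0 * 1 := (mul_one _).symm
      _ ≤ A.valuation x0 * ∏ x ∈ S.erase x0, A.valuation x := by gcongr
  have h3 := super_rat A hp hpA r hrbig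
  have h4 : 1 < A.valuation x₁ := hbig x₁ hx₁0 hx₁
  have h5 : A.valuation x₁ ≤ A.valuation (F.coeff k) := by
    rw [hval, hR1eq, Multiset.map_add, Multiset.prod_add, hTprod]
    calc A.valuation x₁ = 1 * A.valuation x₁ * 1 := by rw [one_mul, mul_one]
      _ ≤ (A.valuation (p : K) * A.valuation (r : K)) * A.valuation x₁ *
          ((R1 - T.val).map A.valuation).prod := by gcongr
      _ = _ := by
        rw [mul_assoc (A.valuation (p : K)), mul_comm (A.valuation (r : K)), mul_assoc]
  exact absurd (lt_of_lt_of_le h4 (h5.trans hle)) (lt_irrefl _)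

end Fermat.Agent.S13
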