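import Mathlib
import Fermat.Agent.S13.LadderFrey
import Fermat.Agent.S13.Super

/-!
# S13 (M4): a reducible Frey representation is not "supersingular" at `p`
-/

set_option autoImplicit false
set_option linter.style.haveILetI false

namespace Fermat.Agent.S13

open WeierstrassCurve WeierstrassCurve.Affine WeierstrassCurve.Affine.Point
open Fermat.Agent.S05 Polynomial

local notation "Kb" => AlgebraicClosure ℚ

variable (P : FreyPackage)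

theorem notSuper_isGalois : IsGalois ℚ Kb := by
  have h : @IsAlgClosure ℚ (AlgebraicClosure ℚ) _ _ (AlgebraicClosure.instAlgebra ℚ) _ :=
    inferInstance
  have h' : IsAlgClosure ℚ Kb := by
    convert h
    exact Subsingleton.elim _ _
  infer_instance

theorem notSuper_rat_of_fixed (x : Kb) (h : ∀ σ : Kb ≃ₐ[ℚ] Kb, σ x = x) :
    ∃ q : ℚ, x = (q : Kb) := by
  have := notSuper_isGalois
  obtain ⟨q, hq⟩ := (InfiniteGalois.mem_range_algebraMap_iff_fixed x).2 h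
  exact ⟨q, by rw [← hq]; simp⟩

lemma frey_sixteen_dvd : (16 : ℤ) ∣ P.b ^ P.p := by
  have h2 : (2 : ℤ) ∣ P.b := by
    have := P.hb2
    rwa [show ((P.b : ZMod 2) = 0) ↔ ((2 : ℕ) : ℤ) ∣ P.b from ZMod.intCast_zmod_eq_zero_iff_dvd P.b 2]
      at this
  have h3 : (2 : ℤ) ^ P.p ∣ P.b ^ P.p := pow_dvd_pow_of_dvd h2 _
  have h4 : (16 : ℤ) ∣ 2 ^ P.p := by
    have : (16 : ℤ) = 2 ^ 4 := by norm_num
    rw [this]
    exact pow_dvd_pow _ (by have := P.hp5; omega)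
  exact h4.trans h3

/-- the action of Galois on the `x`-coordinate -/
lemma frey_xi_smul (σ : Kb ≃ₐ[ℚ] Kb) (Q : (P.freyCurve⁄Kb).Point) (hQ : Q ≠ 0) :
    xi (P.freyCurve⁄Kb) 0 (σ • Q) = σ (xi (P.freyCurve⁄Kb) 0 Q) :=
  freyS_xi P.freyCurve σ 0 (map_zero σ) Q hQ

lemma frey_smul_ne_zero (σ : Kb ≃ₐ[ℚ] Kb) (Q : FreyV P) (hQ : Q ≠ 0) : σ • Q ≠ 0 := by
  intro h
  apply hQ
  have h1 : σ⁻¹ • (σ • Q) = σ⁻¹ • (0 : FreyV P) := by rw [h]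
  rwa [inv_smul_smul, smul_zero] at h1

/-- the integral polynomial whose non zero roots are the `x`-coordinates of the points of order
`p` -/
theorem frey_W : ∃ W : ℤ[X], W.leadingCoeff = (P.p : ℤ) ∧
    ∀ Q : (P.freyCurve⁄Kb).Point, Q ≠ 0 → xi (P.freyCurve⁄Kb) 0 Q ≠ 0 →
      (aeval (xi (P.freyCurve⁄Kb) 0 Q) W = 0 ↔ P.p • Q = 0) := by
  obtain ⟨c, hc⟩ := frey_sixteen_dvd P
  obtain ⟨m, hm⟩ := P.hp_odd
  have hm1 : 1 ≤ m := by have := P.hp5; omega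
  have h4a : 4 * ((frB P - frA P) / 4) = ((P.b ^ P.p - P.a ^ P.p : ℤ) : Kb) := by
    rw [frA, frB]; push_cast; ring
  have hb : -(frA P * frB P) / 16 = ((-(P.a ^ P.p * c) : ℤ) : Kb) := by
    rw [frA, frB, hc]; push_cast; ring
  obtain ⟨W, -, hWlead, hW⟩ := lad_W (frey_kline P) _ _ h4a hb (frey_b_ne_zero P)
    (sub_ne_zero.2 (frey_disc_ne P)) m hm1
  refine ⟨W, ?_, ?_⟩
  · rw [hWlead, hm]; push_cast; ring
  · rw [hm]; exact hW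

theorem frey_not_super (N : Submodule (ZMod P.p) (FreyV P))
    (hN : IsGaloisStable ℚ N) (hbot : N ≠ ⊥) (htop : N ≠ ⊤) (A : ValuationSubring Kb)
    (hA : (P.p : Kb) ∈ A.nonunits) :
    ∃ Q : FreyV P, Q ≠ 0 ∧ xi (P.freyCurve⁄Kb) 0 Q.1 ∈ A := by
  classical
  by_contra hcon
  push Not at hcon
  have hK := frey_kline P
  obtain ⟨W, hWlead, hW⟩ := frey_W P
  haveI : Fintype (FreyV P) := Fintype.ofFinite _
  have hne0 : ∀ Q : FreyV P, Q ≠ 0 → Q.1 ≠ 0 := fun Q hQ h => hQ (Subtype.ext h)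
  have hξ0 : ∀ Q : FreyV P, Q ≠ 0 → xi (P.freyCurve⁄Kb) 0 Q.1 ≠ 0 := fun Q hQ h =>
    hcon Q hQ (by rw [h]; exact A.zero_mem)
  have hroot : ∀ Q : FreyV P, Q ≠ 0 → aeval (xi (P.freyCurve⁄Kb) 0 Q.1) W = 0 := fun Q hQ =>
    (hW Q.1 (hne0 Q hQ) (hξ0 Q hQ)).2 ((freyV_mem_iff P Q.1).1 Q.2)
  set S : Finset Kb := (Finset.univ.filter (fun Q : FreyV P => Q ∈ N ∧ Q ≠ 0)).image
    (fun Q => xi (P.freyCurve⁄Kb) 0 Q.1) with hS
  have hmemS : ∀ x, x ∈ S ↔ ∃ Q : FreyV P, (Q ∈ N ∧ Q ≠ 0) ∧ xi (P.freyCurve⁄Kb) 0 Q.1 = x := by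
    intro x
    rw [hS, Finset.mem_image]
    simp only [Finset.mem_filter, Finset.mem_univ, true_and]
  obtain ⟨Q0, hQ0N, hQ00⟩ := (Submodule.ne_bot_iff N).1 hbot
  obtain ⟨Q1, hQ1⟩ : ∃ Q1 : FreyV P, Q1 ∉ N := by
    by_contra h
    push Not at h
    exact htop (eq_top_iff.2 fun x _ => h x)
  have hQ10 : Q1 ≠ 0 := fun h => hQ1 (h ▸ N.zero_mem)
  refine super_false A W P.pp hA hWlead S ?_ ⟨_, (hmemS _).2 ⟨Q0, ⟨hQ0N, hQ00⟩, rfl⟩⟩ ?_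
    (xi (P.freyCurve⁄Kb) 0 Q1.1) (hroot Q1 hQ10) (hξ0 Q1 hQ10) ?_ ?_
  · intro x hx
    obtain ⟨Q, ⟨-, hQ⟩, rfl⟩ := (hmemS x).1 hx
    exact ⟨hroot Q hQ, hξ0 Q hQ⟩
  · -- rationality
    have hfix : ∀ σ : Kb ≃ₐ[ℚ] Kb, σ (∏ x ∈ S, x) = ∏ x ∈ S, x := by
      intro σ
      have himg : S.image σ = S := by
        ext x
        rw [Finset.mem_image]
        constructor
        · rintro ⟨y, hy, rfl⟩
          obtain ⟨Q, ⟨hQN, hQ⟩, rfl⟩ := (hmemS y).1 hy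
          exact (hmemS _).2 ⟨σ • Q, ⟨hN σ Q hQN, frey_smul_ne_zero P σ Q hQ⟩,
            frey_xi_smul P σ Q.1 (hne0 Q hQ)⟩
        · intro hx
          obtain ⟨Q, ⟨hQN, hQ⟩, rfl⟩ := (hmemS x).1 hx
          refine ⟨xi (P.freyCurve⁄Kb) 0 (σ⁻¹ • Q).1, (hmemS _).2 ⟨σ⁻¹ • Q, ⟨hN σ⁻¹ Q hQN,
            frey_smul_ne_zero P σ⁻¹ Q hQ⟩, rfl⟩, ?_⟩
          rw [← frey_xi_smul P σ _ (hne0 _ (frey_smul_ne_zero P σ⁻¹ Q hQ))]
          have : σ • (σ⁻¹ • Q).1 = Q.1 := congrArg Subtype.val (smul_inv_smul σ Q)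
          rw [this]
      rw [map_prod]
      conv_rhs => rw [← himg]
      rw [Finset.prod_image fun x _ y _ h => σ.injective h]
    exact notSuper_rat_of_fixed _ hfix
  · intro hx
    obtain ⟨Q, ⟨hQN, hQ⟩, hQx⟩ := (hmemS _).1 hx
    rcases hK.inj Q.1 Q1.1 (hne0 Q hQ) (hne0 Q1 hQ10) hQx with h | h
    · exact hQ1 ((Subtype.ext h : Q = Q1) ▸ hQN)
    · have : Q1 = -Q := Subtype.ext (by
        show Q1.1 = -Q.1
        rw [h, neg_neg])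
      exact hQ1 (this ▸ N.neg_mem hQN)
  · intro x hx0 hx
    obtain ⟨Q, hQ0, hQx⟩ := frey_xi_surjective P x
    have hpQ : P.p • Q = 0 := (hW Q hQ0 (by rw [hQx]; exact hx0)).1 (by rw [hQx]; exact hx)
    have := hcon ⟨Q, (freyV_mem_iff P Q).2 hpQ⟩ (fun h => hQ0 (congrArg Subtype.val h))
    rwa [hQx] at this

end Fermat.Agent.S13
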