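import Fermat.Agent.S13.Walk2

/-!
# S13 (M3): the `p`-torsion of a Kummer line with multiplicative reduction at `2`
-/

set_option autoImplicit false

namespace Fermat.Agent.S13

open Fermat.Agent.S05

variable {G K : Type*} [AddCommGroup G] [Field K] {ξ η : G → K} {a b : K}

lemma two_eq_one_of_mul {Γ : Type*} [LinearOrderedCommGroupWithZero Γ] {x y : Γ} (hx : x ≤ 1)
    (hy : y ≤ 1) (h : x * y = 1) : x = 1 ∧ y = 1 := by
  constructor
  · apply le_antisymm hx
    calc (1 : Γ) = x * y := h.symm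
      _ ≤ x * 1 := by gcongr
      _ = x := mul_one _
  · apply le_antisymm hy
    calc (1 : Γ) = x * y := h.symm
      _ ≤ 1 * y := by gcongr
      _ = y := one_mul _

lemma two_val_four (A : ValuationSubring K) (h2 : A.valuation 2 < 1) : A.valuation 4 < 1 := by
  have : (4 : K) = 2 * 2 := by norm_num
  rw [this, map_mul]
  calc A.valuation 2 * A.valuation 2 ≤ A.valuation 2 * 1 := by gcongr
    _ < 1 := by rw [mul_one]; exact h2

theorem two_integral (A : ValuationSubring K) (h : KLine ξ η a b) (h2 : A.valuation 2 < 1)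
    (h4a : A.valuation (4 * a) = 1) (hb : b ∈ A) {p : ℕ} (hp : p.Prime) (hp2 : p ≠ 2)
    (P : G) (hP : P ≠ 0) (hpP : p • P = 0) : ξ P ∈ A := by
  have hp1 : 1 < p := hp.one_lt
  obtain ⟨n₀, hn₀, hmax⟩ := Finset.exists_max_image (Finset.Icc 1 (p - 1))
    (fun n => A.valuation (ξ (n • P))) ⟨1, by rw [Finset.mem_Icc]; omega⟩
  rw [Finset.mem_Icc] at hn₀
  have hP' : n₀ • P ≠ 0 :=
    int_nsmul_ne_zero hp hP hpP (Nat.not_dvd_of_pos_of_lt (by omega) (by omega))
  have hpP' : p • n₀ • P = 0 := by rw [smul_comm, hpP, smul_zero]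
  obtain ⟨h2P, hp2P⟩ := eta_two_ne hp hp2 (n₀ • P) hP' hpP'
  have hle : A.valuation (ξ (n₀ • P + n₀ • P)) ≤ A.valuation (ξ (n₀ • P)) := by
    have e : n₀ • P + n₀ • P = ((2 * n₀) % p) • P := by
      rw [← two_smul ℕ, smul_smul]
      conv_lhs => rw [← Nat.div_add_mod (2 * n₀) p]
      rw [add_smul, mul_comm p, mul_smul, hpP, smul_zero, zero_add]
    have h3 : (2 * n₀) % p ≠ 0 := by
      intro h0
      rw [e, h0, zero_smul] at h2P
      exact h2P rfl
    rw [e]
    apply hmax
    rw [Finset.mem_Icc]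
    have h5 := Nat.mod_lt (2 * n₀) hp.pos
    omega
  have hint : ξ (n₀ • P) ∈ A := by
    by_contra hx
    set x := ξ (n₀ • P) with hxdef
    have hvx : 1 < A.valuation x := by
      rw [← not_le, A.valuation_le_one_iff]
      exact hx
    have hvx0 : 0 < A.valuation x := zero_lt_one.trans hvx
    have hd : x * (4 * x ^ 2 + 4 * a * x + 4 * b) * ξ (n₀ • P + n₀ • P) = (x ^ 2 - b) ^ 2 := by
      linear_combination h.dbl _ hP' h2P
    have hvb : A.valuation b ≤ 1 := (A.valuation_le_one_iff _).2 hb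
    have h4 : A.valuation 4 < 1 := two_val_four A h2
    have hsq : 1 < A.valuation x ^ 2 := one_lt_pow₀ hvx two_ne_zero
    have h1 : A.valuation (x ^ 2 - b) = A.valuation x ^ 2 := by
      rw [Valuation.map_sub_eq_of_lt_left, map_pow]
      rw [map_pow]
      exact hvb.trans_lt hsq
    have hq : A.valuation (4 * x ^ 2 + 4 * a * x + 4 * b) < A.valuation x ^ 2 := by
      apply Valuation.map_add_lt
      · apply Valuation.map_add_lt
        · rw [map_mul, map_pow]
          calc A.valuation 4 * A.valuation x ^ 2 < 1 * A.valuation x ^ 2 :=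
                mul_lt_mul_of_pos_right h4 (zero_lt_one.trans hsq)
            _ = A.valuation x ^ 2 := one_mul _
        · rw [map_mul, h4a, one_mul, pow_two]
          calc A.valuation x = 1 * A.valuation x := (one_mul _).symm
            _ < A.valuation x * A.valuation x := mul_lt_mul_of_pos_right hvx hvx0
      · rw [map_mul]
        calc A.valuation 4 * A.valuation b ≤ 1 * 1 := by gcongr
          _ < A.valuation x ^ 2 := by rw [one_mul]; exact hsq
    have h5 := congrArg A.valuation hd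
    rw [map_mul, map_mul, map_pow, h1] at h5
    have h6 : A.valuation x * A.valuation (4 * x ^ 2 + 4 * a * x + 4 * b) *
        A.valuation (ξ (n₀ • P + n₀ • P)) < (A.valuation x ^ 2) ^ 2 := by
      calc A.valuation x * A.valuation (4 * x ^ 2 + 4 * a * x + 4 * b) *
          A.valuation (ξ (n₀ • P + n₀ • P))
          ≤ A.valuation x * A.valuation (4 * x ^ 2 + 4 * a * x + 4 * b) * A.valuation x := by
            gcongr
        _ < A.valuation x * A.valuation x ^ 2 * A.valuation x :=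
            mul_lt_mul_of_pos_right (mul_lt_mul_of_pos_left hq hvx0) hvx0
        _ = (A.valuation x ^ 2) ^ 2 := by rw [← pow_mul, ← pow_succ', ← pow_succ]
    exact h6.ne h5
  rw [← A.valuation_le_one_iff] at hint ⊢
  have h6 := hmax 1 (by rw [Finset.mem_Icc]; omega)
  simp only [one_smul] at h6
  exact h6.trans hint

/-- roots of `y (y + x) = c` with `x, c` integral are integral -/
lemma two_quad_int (A : ValuationSubring K) {x y c : K} (hx : A.valuation x ≤ 1)
    (hc : A.valuation c ≤ 1) (h : y * (y + x) = c) : A.valuation y ≤ 1 := by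
  by_contra hcon
  push Not at hcon
  have h1 : A.valuation (y + x) = A.valuation y :=
    Valuation.map_add_eq_of_lt_left _ (hx.trans_lt hcon)
  have h2 := congrArg A.valuation h
  rw [map_mul, h1] at h2
  have h3 : 1 < A.valuation y * A.valuation y := by
    calc (1 : A.ValueGroup) < A.valuation y := hcon
      _ = 1 * A.valuation y := (one_mul _).symm
      _ ≤ A.valuation y * A.valuation y := by gcongr
  rw [h2] at h3
  exact absurd hc (not_le.2 h3)

lemma two_val_four_a (A : ValuationSubring K) (h2 : A.valuation 2 < 1) (h20 : (2 : K) ≠ 0)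
    (ha : a - 1 / 4 ∈ A) : A.valuation (4 * a) = 1 := by
  have h40 : (4 : K) ≠ 0 := by
    have : (4 : K) = 2 * 2 := by norm_num
    rw [this]
    exact mul_ne_zero h20 h20
  have e : 4 * a = 1 + 4 * (a - 1 / 4) := by field_simp; ring
  have h1 : A.valuation (4 * (a - 1 / 4)) < A.valuation 1 := by
    rw [map_mul, map_one]
    calc A.valuation 4 * A.valuation (a - 1 / 4) ≤ A.valuation 4 * 1 := by
          gcongr
          exact (A.valuation_le_one_iff _).2 ha
      _ < 1 := by rw [mul_one]; exact two_val_four A h2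
  rw [e, Valuation.map_add_eq_of_lt_left _ h1, map_one]

section units

variable (A : ValuationSubring K) (h : KLine ξ η a b) {p : ℕ}
  (h4a : A.valuation (4 * a) = 1) (hb : A.valuation b < 1)
  (hint : ∀ Q : G, Q ≠ 0 → p • Q = 0 → ξ Q ∈ A)
include h hb hint

lemma two_prod_unit {P Q : G} (hP : P ≠ 0) (hQ : Q ≠ 0) (hpP : p • P = 0) (hpQ : p • Q = 0)
    (hs : P + Q ≠ 0) (hd : P - Q ≠ 0) (hxP : A.valuation (ξ P) = 1)
    (hxQ : A.valuation (ξ Q) = 1) : A.valuation (ξ P - ξ Q) = 1 := by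
  have hpr := h.prod P Q hP hQ hs hd
  have h1 : A.valuation (ξ P * ξ Q - b) = 1 := by
    have : A.valuation b < A.valuation (ξ P * ξ Q) := by rw [map_mul, hxP, hxQ, one_mul]; exact hb
    rw [Valuation.map_sub_eq_of_lt_left _ this, map_mul, hxP, hxQ, one_mul]
  have h3 : A.valuation (ξ (P + Q)) ≤ 1 :=
    (A.valuation_le_one_iff _).2 (hint _ hs (by rw [smul_add, hpP, hpQ, add_zero]))
  have h4 : A.valuation (ξ (P - Q)) ≤ 1 :=
    (A.valuation_le_one_iff _).2 (hint _ hd (by rw [smul_sub, hpP, hpQ, sub_zero]))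
  have h5 : A.valuation (ξ P - ξ Q) ≤ 1 :=
    (A.valuation.map_sub _ _).trans (max_le hxP.le hxQ.le)
  have h6 := congrArg A.valuation hpr
  rw [map_mul, map_pow, map_pow, h1, one_pow, map_mul] at h6
  have h7 := (two_eq_one_of_mul (pow_le_one₀ zero_le h5) (mul_le_one₀ h3 zero_le h4) h6).1
  exact eta_eq_one_of_sq h7

include h4a in
lemma two_dbl_unit {P : G} (hP : P ≠ 0) (hpP : p • P = 0) (h2P : P + P ≠ 0)
    (hxP : A.valuation (ξ P) = 1) : A.valuation (ξ (P + P)) = 1 := by
  have hd : ξ P * (4 * ξ P ^ 2 + 4 * a * ξ P + 4 * b) * ξ (P + P) = (ξ P ^ 2 - b) ^ 2 := by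
    linear_combination h.dbl _ hP h2P
  have h1 : A.valuation (ξ P ^ 2 - b) = 1 := by
    have : A.valuation b < A.valuation (ξ P ^ 2) := by rw [map_pow, hxP, one_pow]; exact hb
    rw [Valuation.map_sub_eq_of_lt_left _ this, map_pow, hxP, one_pow]
  have h3 : A.valuation (ξ (P + P)) ≤ 1 :=
    (A.valuation_le_one_iff _).2 (hint _ h2P (by rw [smul_add, hpP, add_zero]))
  have h4 : A.valuation (4 : K) ≤ 1 := by
    have := core_val_int_le A 4
    simpa using this
  have h5 : A.valuation (4 * ξ P ^ 2 + 4 * a * ξ P + 4 * b) ≤ 1 := by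
    refine (A.valuation.map_add _ _).trans (max_le ((A.valuation.map_add _ _).trans
      (max_le ?_ ?_)) ?_)
    · rw [map_mul, map_pow, hxP, one_pow, mul_one]
      exact h4
    · rw [map_mul, h4a, hxP, one_mul]
    · rw [map_mul]
      exact mul_le_one₀ h4 zero_le hb.le
  have h6 := congrArg A.valuation hd
  rw [map_mul, map_mul, hxP, one_mul, map_pow, h1, one_pow] at h6
  exact (two_eq_one_of_mul h5 h3 h6).2

end units

section sigma

variable (A : ValuationSubring K) (σ : K →+* K) (hσ : ∀ x ∈ A, σ x - x ∈ A.nonunits)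
include hσ

lemma two_sigma_lt {x : K} (hx : A.valuation x ≤ 1) : A.valuation (σ x - x) < 1 :=
  (A.mem_nonunits_iff).1 (hσ x ((A.valuation_le_one_iff _).1 hx))

lemma two_sigma_unit {x : K} (hx : A.valuation x = 1) : A.valuation (σ x) = 1 := by
  have h1 := two_sigma_lt A σ hσ hx.le
  have e : σ x = x + (σ x - x) := by ring
  rw [e, Valuation.map_add_eq_of_lt_left _ (by rw [hx]; exact h1), hx]

end sigma

section

variable (A : ValuationSubring K) (h : KLine ξ η a b) {p : ℕ} (hp : p.Prime) (hp5 : 5 ≤ p)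
  (h2 : A.valuation 2 < 1) (h20 : (2 : K) ≠ 0) (ha : a - 1 / 4 ∈ A)
  (hb : A.valuation b < 1) (hb0 : b ≠ 0)
  (σ : K →+* K) (s : G →+ G) (hσ : ∀ x ∈ A, σ x - x ∈ A.nonunits) (hs0 : ∀ Q, s Q = 0 → Q = 0)
  (hsξ : ∀ Q, Q ≠ 0 → ξ (s Q) = σ (ξ Q)) (hsη : ∀ Q, Q ≠ 0 → η (s Q) = σ (η Q))
  (hint : ∀ Q : G, Q ≠ 0 → p • Q = 0 → ξ Q ∈ A)

include h h2 h20 ha hb hσ hs0 hsξ hsη hint in
/-- (d) points with unit `ξ` are fixed by inertia -/
lemma two_fix (P : G) (hP : P ≠ 0) (hpP : p • P = 0) (hx : A.valuation (ξ P) = 1) :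
    s P = P := by
  by_contra hne
  have hsP : s P ≠ 0 := fun h0 => hP (hs0 P h0)
  have hpsP : p • s P = 0 := by rw [← map_nsmul, hpP, map_zero]
  have hxs : ξ (s P) = σ (ξ P) := hsξ P hP
  have h40 : (4 : K) ≠ 0 := by
    have : (4 : K) = 2 * 2 := by norm_num
    rw [this]
    exact mul_ne_zero h20 h20
  by_cases hneg : s P + P = 0
  · have h1 : s P = -P := eq_neg_of_add_eq_zero_left hneg
    have hσx : σ (ξ P) = ξ P := by rw [← hxs, h1, h.neg]
    have hση : σ (η P) = -η P := by rw [← hsη P hP, h1, h.eta_neg]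
    have hy : (η P - ξ P) / 2 * ((η P - ξ P) / 2 + ξ P) =
        ξ P ^ 3 + (a - 1 / 4) * ξ P ^ 2 + b * ξ P := by
      have := h.eta_sq P hP
      field_simp
      linear_combination 4 * this
    have hc : A.valuation (ξ P ^ 3 + (a - 1 / 4) * ξ P ^ 2 + b * ξ P) ≤ 1 := by
      refine (A.valuation.map_add _ _).trans (max_le ((A.valuation.map_add _ _).trans
        (max_le ?_ ?_)) ?_)
      · rw [map_pow, hx, one_pow]
      · rw [map_mul, map_pow, hx, one_pow, mul_one]
        exact (A.valuation_le_one_iff _).2 ha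
      · rw [map_mul, hx, mul_one]
        exact hb.le
    have hyA := two_quad_int A hx.le hc hy
    have h3 : σ ((η P - ξ P) / 2) - (η P - ξ P) / 2 = -(ξ P + 2 * ((η P - ξ P) / 2)) := by
      rw [map_div₀, map_sub, hσx, hση, map_ofNat]
      field_simp
      ring
    have h4 := two_sigma_lt A σ hσ hyA
    have h5 : A.valuation (2 * ((η P - ξ P) / 2)) < A.valuation (ξ P) := by
      rw [hx, map_mul]
      calc A.valuation 2 * A.valuation ((η P - ξ P) / 2) ≤ A.valuation 2 * 1 := by gcongr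
        _ < 1 := by rw [mul_one]; exact h2
    rw [h3, Valuation.map_neg, Valuation.map_add_eq_of_lt_left _ h5, hx] at h4
    exact lt_irrefl _ h4
  · have h1 := two_prod_unit A h hb hint hsP hP hpsP hpP hneg (fun h0 => hne (sub_eq_zero.1 h0))
      (by rw [hxs]; exact two_sigma_unit A σ hσ hx) hx
    rw [hxs] at h1
    exact (two_sigma_lt A σ hσ hx.le).ne h1

include h h2 h20 ha hb0 hσ hsξ hsη in
/-- (e) -/
lemma two_neg_impossible (R : G) (hR : R ≠ 0) (hbx : A.valuation b ≤ A.valuation (ξ R))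
    (hx1 : A.valuation (ξ R) < 1) (hsR : s R = -R) : False := by
  have hvb0 : 0 < A.valuation b := (Valuation.pos_iff _).2 hb0
  have hvx0 : 0 < A.valuation (ξ R) := hvb0.trans_le hbx
  have hx0 : ξ R ≠ 0 := (Valuation.pos_iff _).1 hvx0
  have hσx : σ (ξ R) = ξ R := by rw [← hsξ R hR, hsR, h.neg]
  have hση : σ (η R) = -η R := by rw [← hsη R hR, hsR, h.eta_neg]
  have hw : (η R - ξ R) / (2 * ξ R) * ((η R - ξ R) / (2 * ξ R) + 1) =
      ξ R + (a - 1 / 4) + b / ξ R := by
    have := h.eta_sq R hR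
    have h40 : (4 : K) ≠ 0 := by
      have : (4 : K) = 2 * 2 := by norm_num
      rw [this]
      exact mul_ne_zero h20 h20
    field_simp
    linear_combination 4 * this
  have hc : A.valuation (ξ R + (a - 1 / 4) + b / ξ R) ≤ 1 := by
    refine (A.valuation.map_add _ _).trans (max_le ((A.valuation.map_add _ _).trans
      (max_le hx1.le ((A.valuation_le_one_iff _).2 ha))) ?_)
    rw [map_div₀]
    exact div_le_one_of_le₀ hbx zero_le
  have hwA := two_quad_int A (by rw [map_one]) hc hw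
  have h3 : σ ((η R - ξ R) / (2 * ξ R)) - (η R - ξ R) / (2 * ξ R) =
      -(1 + 2 * ((η R - ξ R) / (2 * ξ R))) := by
    rw [map_div₀, map_sub, map_mul, hσx, hση, map_ofNat]
    field_simp
    ring
  have h4 := two_sigma_lt A σ hσ hwA
  have h5 : A.valuation (2 * ((η R - ξ R) / (2 * ξ R))) < A.valuation 1 := by
    rw [map_one, map_mul]
    calc A.valuation 2 * A.valuation ((η R - ξ R) / (2 * ξ R)) ≤ A.valuation 2 * 1 := by gcongr
      _ < 1 := by rw [mul_one]; exact h2
  rw [h3, Valuation.map_neg, Valuation.map_add_eq_of_lt_left _ h5, map_one] at h4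
  exact lt_irrefl _ h4

include h hp hp5 h2 h20 ha hb hb0 hσ hs0 hsξ hsη hint in
/-- (f) for a generator of type (ii) -/
lemma two_out_gen (hσb : σ b = b) (R : G) (hR : R ≠ 0) (hpR : p • R = 0)
    (hlam : A.valuation (ξ R) ^ p = A.valuation b ^ 2) (hblt : A.valuation b < A.valuation (ξ R))
    (hlt1 : A.valuation (ξ R) < 1) : s R - R = 0 ∨ A.valuation (ξ (s R - R)) = 1 := by
  have h4a := two_val_four_a A h2 h20 ha
  have hvb0 : 0 < A.valuation b := (Valuation.pos_iff _).2 hb0
  have hlam0 : 0 < A.valuation (ξ R) := hvb0.trans hblt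
  have hx0 : ξ R ≠ 0 := (Valuation.pos_iff _).1 hlam0
  have hσx : A.valuation (σ (ξ R)) = A.valuation (ξ R) := by
    have hu : A.valuation (ξ R ^ p / b ^ 2) = 1 := by
      rw [map_div₀, map_pow, map_pow, hlam, div_self (pow_ne_zero 2 hvb0.ne')]
    have h1 := two_sigma_unit A σ hσ hu
    rw [map_div₀ σ, map_pow, map_pow, hσb, map_div₀, map_pow, map_pow,
      div_eq_one_iff_eq (pow_ne_zero 2 hvb0.ne'), ← hlam] at h1
    exact (pow_left_inj₀ zero_le zero_le hp.ne_zero).1 h1
  by_cases hd : s R - R = 0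
  · exact Or.inl hd
  right
  have hsR : s R ≠ 0 := fun h0 => hR (hs0 R h0)
  have hpsR : p • s R = 0 := by rw [← map_nsmul, hpR, map_zero]
  by_cases hs : s R + R = 0
  · exact (two_neg_impossible A h h2 h20 ha hb0 σ s hσ hsξ hsη R hR hblt.le hlt1
      (eq_neg_of_add_eq_zero_left hs)).elim
  have hsum := h.sum (s R) R hsR hR hs hd
  have hprod := h.prod (s R) R hsR hR hs hd
  rw [hsξ R hR] at hsum hprod
  have hpp : p • (s R + R) = 0 := by rw [smul_add, hpsR, hpR, add_zero]
  have hpm : p • (s R - R) = 0 := by rw [smul_sub, hpsR, hpR, sub_zero]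
  have hxp : A.valuation (ξ (s R + R)) ≤ 1 := (A.valuation_le_one_iff _).2 (hint _ hs hpp)
  have hxm : A.valuation (ξ (s R - R)) ≤ 1 := (A.valuation_le_one_iff _).2 (hint _ hd hpm)
  generalize hxpdef : ξ (s R + R) = xp at *
  generalize hxmdef : ξ (s R - R) = xm at *
  generalize hxdef : ξ R = x at *
  generalize hldef : A.valuation x = lam at *
  have hRv : A.valuation (2 * ((σ x + x) * (σ x * x + b) + 2 * a * (σ x * x))) = lam ^ 2 := by
    have e : 2 * ((σ x + x) * (σ x * x + b) + 2 * a * (σ x * x)) =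
        4 * a * (σ x * x) + 2 * ((σ x + x) * (σ x * x + b)) := by ring
    have h1 : A.valuation (σ x + x) ≤ lam :=
      (A.valuation.map_add _ _).trans (max_le hσx.le hldef.le)
    have h3 : A.valuation (σ x * x + b) ≤ lam := by
      refine (A.valuation.map_add _ _).trans (max_le ?_ hblt.le)
      rw [map_mul, hσx, hldef]
      calc lam * lam ≤ lam * 1 := by gcongr
        _ = lam := mul_one _
    have h5 : A.valuation (4 * a * (σ x * x)) = lam ^ 2 := by
      rw [map_mul, h4a, one_mul, map_mul, hσx, hldef, pow_two]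
    have h6 : A.valuation (2 * ((σ x + x) * (σ x * x + b))) < A.valuation (4 * a * (σ x * x)) := by
      rw [h5, map_mul, map_mul]
      calc A.valuation 2 * (A.valuation (σ x + x) * A.valuation (σ x * x + b))
          ≤ A.valuation 2 * (lam * lam) := by gcongr
        _ < 1 * (lam * lam) := mul_lt_mul_of_pos_right h2 (mul_pos hlam0 hlam0)
        _ = lam ^ 2 := by rw [one_mul, pow_two]
    rw [e, Valuation.map_add_eq_of_lt_left _ h6, h5]
  have hδ : A.valuation (σ x - x) ≤ lam :=
    (A.valuation.map_sub _ _).trans (max_le hσx.le hldef.le)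
  have hS : A.valuation (xp + xm) ≤ 1 := (A.valuation.map_add _ _).trans (max_le hxp hxm)
  have h6 := congrArg A.valuation hsum
  rw [map_mul, map_pow, hRv] at h6
  have hδeq : A.valuation (σ x - x) = lam := by
    apply le_antisymm hδ
    by_contra hcon
    push Not at hcon
    have : A.valuation (σ x - x) ^ 2 * A.valuation (xp + xm) < lam ^ 2 := by
      calc A.valuation (σ x - x) ^ 2 * A.valuation (xp + xm)
          ≤ A.valuation (σ x - x) ^ 2 * 1 := by gcongr
        _ < lam ^ 2 := by rw [mul_one]; exact pow_lt_pow_left₀ hcon zero_le two_ne_zero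
    exact this.ne h6
  have hSeq : A.valuation (xp + xm) = 1 := by
    rw [hδeq] at h6
    exact (mul_eq_left₀ (pow_ne_zero 2 hlam0.ne')).1 h6
  have hb2 : A.valuation b < lam ^ 2 := by
    by_contra hcon
    push Not at hcon
    have h7 : (lam ^ 2) ^ 2 ≤ A.valuation b ^ 2 := pow_le_pow_left₀ zero_le hcon 2
    rw [← hlam] at h7
    have h8 : lam ^ p < (lam ^ 2) ^ 2 := by
      rw [← pow_mul]
      exact pow_lt_pow_right_of_lt_one₀ hlam0 hlt1 (by omega)
    exact absurd h7 (not_le.2 h8)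
  have hPv : A.valuation (σ x * x - b) = lam ^ 2 := by
    have : A.valuation b < A.valuation (σ x * x) := by
      rw [map_mul, hσx, hldef, ← pow_two]
      exact hb2
    rw [Valuation.map_sub_eq_of_lt_left _ this, map_mul, hσx, hldef, pow_two]
  have h9 := congrArg A.valuation hprod
  rw [map_mul, map_pow, hδeq, map_pow, hPv, map_mul] at h9
  have h10 : A.valuation xp * A.valuation xm = lam ^ 2 := by
    have : lam ^ 2 * (A.valuation xp * A.valuation xm) = lam ^ 2 * lam ^ 2 := by
      rw [h9, pow_two (lam ^ 2)]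
    exact mul_left_cancel₀ (pow_ne_zero 2 hlam0.ne') this
  by_contra hxm1
  have hxmlt : A.valuation xm < 1 := lt_of_le_of_ne hxm hxm1
  have hxp1 : A.valuation xp = 1 := by
    by_contra hc
    have := Valuation.map_add_lt _ (lt_of_le_of_ne hxp hc) hxmlt
    rw [hSeq] at this
    exact lt_irrefl _ this
  rw [hxp1, one_mul] at h10
  have hfix : s (s R + R) = s R + R :=
    two_fix A h h2 h20 ha hb σ s hσ hs0 hsξ hsη hint (s R + R) hs hpp (by rw [hxpdef]; exact hxp1)
  have hss : s (s R) = R := by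
    rw [map_add] at hfix
    exact add_right_cancel (hfix.trans (add_comm _ _))
  refine two_neg_impossible A h h2 h20 ha hb0 σ s hσ hsξ hsη (s R - R) hd ?_ ?_ ?_
  · rw [hxmdef, h10]
    exact hb2.le
  · rw [hxmdef]
    exact hxmlt
  · rw [map_sub, hss, neg_sub]

include h hp hp5 h2 h20 ha hb hb0 in
/-- (U) inertia at `2` is unipotent -/
theorem two_unipotent
    (σ : K →+* K) (s : G →+ G) (hσ : ∀ x ∈ A, σ x - x ∈ A.nonunits) (hs0 : ∀ Q, s Q = 0 → Q = 0)
    (hsξ : ∀ Q, Q ≠ 0 → ξ (s Q) = σ (ξ Q)) (hsη : ∀ Q, Q ≠ 0 → η (s Q) = σ (η Q))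
    (hσb : σ b = b) (P : G) (hpP : p • P = 0) : s (s P - P) = s P - P := by
  have hp2 : p ≠ 2 := by omega
  have h4a := two_val_four_a A h2 h20 ha
  have hint : ∀ Q : G, Q ≠ 0 → p • Q = 0 → ξ Q ∈ A := fun Q hQ hpQ =>
    two_integral A h h2 h4a ((A.valuation_le_one_iff _).1 hb.le) hp hp2 Q hQ hpQ
  by_cases hP : P = 0
  · simp [hP]
  obtain ⟨P₀, k, hk, hP₀, hpP₀, hcase⟩ := walk2 A h h4a hb hb0 h20 hp hp2 hint P hP hpP
  have key : s (s P₀ - P₀) = s P₀ - P₀ := by
    rcases hcase with h1 | ⟨h1, h3, h4⟩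
    · rw [two_fix A h h2 h20 ha hb σ s hσ hs0 hsξ hsη hint P₀ hP₀ hpP₀ h1, sub_self, map_zero]
    · rcases two_out_gen A h hp hp5 h2 h20 ha hb hb0 σ s hσ hs0 hsξ hsη hint hσb P₀ hP₀ hpP₀
        h1 h3 h4 with h5 | h5
      · rw [h5, map_zero]
      · by_cases h6 : s P₀ - P₀ = 0
        · rw [h6, map_zero]
        · exact two_fix A h h2 h20 ha hb σ s hσ hs0 hsξ hsη hint (s P₀ - P₀) h6
            (by rw [smul_sub, ← map_nsmul, hpP₀, map_zero, sub_zero]) h5
  rw [hk, map_nsmul, ← smul_sub, map_nsmul, key]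

/-- rational numbers which are units at a place above `2` are `≡ 1` -/
lemma two_rat_unit [CharZero K] (A : ValuationSubring K) (h2 : A.valuation 2 < 1) (r : ℚ)
    (hr : A.valuation (r : K) = 1) : A.valuation ((r : K) - 1) < 1 := by
  have h2A : ((2 : ℕ) : K) ∈ A.nonunits := by
    rw [A.mem_nonunits_iff]
    simpa using h2
  have hd0 : (r.den : K) ≠ 0 := by exact_mod_cast r.den_nz
  have hcast : (r : K) = (r.num : K) / ((r.den : ℤ) : K) := by
    rw [Rat.cast_def]
    simp
  have hd0' : (((r.den : ℤ)) : K) ≠ 0 := by simpa using hd0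
  rw [hcast, map_div₀] at hr
  by_cases hden : ((2 : ℕ) : ℤ) ∣ (r.den : ℤ)
  · exfalso
    have hnum : ¬ ((2 : ℕ) : ℤ) ∣ r.num := by
      intro hn
      have h1 : 2 ∣ r.num.natAbs := by
        have := Int.natAbs_dvd_natAbs.2 hn
        simpa using this
      have h3 : 2 ∣ r.den := by exact_mod_cast hden
      have := Nat.dvd_gcd h1 h3
      rw [r.reduced] at this
      omega
    have h1 := core_val_int_eq A Nat.prime_two h2A hnum
    have h3 := core_val_int_lt A h2A hden
    rw [h1, div_eq_one_iff_eq ((Valuation.ne_zero_iff _).2 hd0')] at hr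
    rw [← hr] at h3
    exact lt_irrefl _ h3
  · have h1 := core_val_int_eq A Nat.prime_two h2A hden
    rw [h1, div_one] at hr
    have hnum : ¬ ((2 : ℕ) : ℤ) ∣ r.num := fun hn => (core_val_int_lt A h2A hn).ne hr
    have hsub : ((2 : ℕ) : ℤ) ∣ r.num - (r.den : ℤ) := by
      push_cast at hden hnum ⊢
      omega
    have h3 := core_val_int_lt A h2A hsub
    have e : (r.num : K) / ((r.den : ℤ) : K) - 1 = ((r.num - (r.den : ℤ) : ℤ) : K) /
        ((r.den : ℤ) : K) := by
      push_cast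
      field_simp
    rw [hcast, e, map_div₀, h1, div_one]
    exact h3

include h hp hp5 h2 h20 ha hb hb0 in
/-- (F) no rational point of order `p` -/
theorem two_no_rational [CharZero K] (P : G) (hP : P ≠ 0) (hpP : p • P = 0)
    (hrat : ∀ k : ℕ, ∃ r : ℚ, ξ (k • P) = (r : K))
    (hbv : ∀ r : ℚ, A.valuation (r : K) ^ p ≠ A.valuation b ^ 2) : False := by
  have hp2 : p ≠ 2 := by omega
  have h4a := two_val_four_a A h2 h20 ha
  have hint : ∀ Q : G, Q ≠ 0 → p • Q = 0 → ξ Q ∈ A := fun Q hQ hpQ =>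
    two_integral A h h2 h4a ((A.valuation_le_one_iff _).1 hb.le) hp hp2 Q hQ hpQ
  obtain ⟨k₀, k, hk, hP₀, hpP₀, hcase⟩ := walk2_strong A h h4a hb hb0 h20 hp hp2 hint P hP hpP
  rcases hcase with h1 | ⟨h1, -, -⟩
  · obtain ⟨r1, hr1⟩ := hrat k₀
    obtain ⟨r2, hr2⟩ := hrat (2 * k₀)
    have e2 : (2 * k₀) • P = k₀ • P + k₀ • P := by rw [mul_smul, two_smul]
    rw [e2] at hr2
    obtain ⟨h2P, hp2P⟩ := eta_two_ne hp hp2 (k₀ • P) hP₀ hpP₀
    have hu2 := two_dbl_unit A h h4a hb hint hP₀ hpP₀ h2P h1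
    have h3P : k₀ • P + k₀ • P + k₀ • P ≠ 0 := by
      have h3 : ¬ p ∣ 3 := fun hd => by
        have := Nat.le_of_dvd (by norm_num) hd
        omega
      have := int_nsmul_ne_zero hp hP₀ hpP₀ h3
      rwa [show (3 : ℕ) = 2 + 1 from rfl, add_smul, two_smul, one_smul] at this
    have h5 := two_prod_unit A h hb hint h2P hP₀ hp2P hpP₀ h3P
      (by rw [add_sub_cancel_right]; exact hP₀) hu2 h1
    have h6 := two_rat_unit A h2 r1 (by rw [← hr1]; exact h1)
    have h7 := two_rat_unit A h2 r2 (by rw [← hr2]; exact hu2)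
    have e : ξ (k₀ • P + k₀ • P) - ξ (k₀ • P) = ((r2 : K) - 1) - ((r1 : K) - 1) := by
      rw [hr1, hr2]
      ring
    rw [e] at h5
    exact (Valuation.map_sub_lt _ h7 h6).ne h5
  · obtain ⟨r, hr⟩ := hrat k₀
    exact hbv r (by rw [← hr]; exact h1)

end

end Fermat.Agent.S13
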