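import Fermat.Agent.S05.Core

/-!
# S13 (M3b): the walk on the Néron polygon in residue characteristic `2`

Same as `S05/Walk.lean`, with the hypotheses `o (4 * a) = 0`, `0 ≤ o 2` instead of
`o a = 0`, `o 2 = 0`.
-/

set_option autoImplicit false
set_option linter.unusedSectionVars false

namespace Fermat.Agent.S13

open Fermat.Agent.S05

section kl

variable {Γ : Type*} [AddCommGroup Γ] [LinearOrder Γ] [IsOrderedAddMonoid Γ]
variable {G K : Type*} [AddCommGroup G] [Field K] {ξ η : G → K} {a b : K} {o : K → Γ}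

/-- the duplication formula in terms of orders -/
lemma walk2_dbl_ord (ho : IsOrd o) (h : KLine ξ η a b)
    {Q : G} (hQ : Q ≠ 0) (hQ2 : Q + Q ≠ 0) (hx : ξ Q ≠ 0) (hu : ξ (Q + Q) ≠ 0)
    (hor : 4 * ξ Q ^ 2 + 4 * a * ξ Q + 4 * b ≠ 0 ∨ ξ Q ^ 2 - b ≠ 0) :
    4 * ξ Q ^ 2 + 4 * a * ξ Q + 4 * b ≠ 0 ∧ ξ Q ^ 2 - b ≠ 0 ∧
      o (ξ Q) + o (4 * ξ Q ^ 2 + 4 * a * ξ Q + 4 * b) + o (ξ (Q + Q)) =
        o (ξ Q ^ 2 - b) + o (ξ Q ^ 2 - b) := by
  have hd : ξ Q * (4 * ξ Q ^ 2 + 4 * a * ξ Q + 4 * b) * ξ (Q + Q) = (ξ Q ^ 2 - b) ^ 2 := by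
    linear_combination h.dbl Q hQ hQ2
  have hq : 4 * ξ Q ^ 2 + 4 * a * ξ Q + 4 * b ≠ 0 := by
    rcases hor with h1 | h1
    · exact h1
    · intro h0
      rw [h0, mul_zero, zero_mul] at hd
      exact h1 (pow_eq_zero_iff two_ne_zero |>.mp hd.symm)
  have hz : ξ Q ^ 2 - b ≠ 0 := by
    intro h0
    rw [h0] at hd
    have : ξ Q * (4 * ξ Q ^ 2 + 4 * a * ξ Q + 4 * b) * ξ (Q + Q) ≠ 0 :=
      mul_ne_zero (mul_ne_zero hx hq) hu
    exact this (by rw [hd]; ring)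
  refine ⟨hq, hz, ?_⟩
  have h1 := congrArg o hd
  rw [ho.sq hz, ho.mul _ _ (mul_ne_zero hx hq) hu, ho.mul _ _ hx hq] at h1
  exact h1

lemma walk2_four (ho : IsOrd o) (h20 : (2 : K) ≠ 0) (ho2 : 0 ≤ o (2 : K)) :
    (4 : K) ≠ 0 ∧ 0 ≤ o (4 : K) := by
  have h4 : (4 : K) = 2 * 2 := by norm_num
  refine ⟨by rw [h4]; exact mul_ne_zero h20 h20, ?_⟩
  rw [h4, ho.mul _ _ h20 h20]
  exact add_nonneg ho2 ho2

/-- step (2): all orders are `< ord b` -/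
lemma walk2_ord_lt (ho : IsOrd o) (h : KLine ξ η a b) (ha0 : 4 * a ≠ 0) (hoa : o (4 * a) = 0)
    (hb0 : b ≠ 0) (hm : 0 < o b) (h20 : (2 : K) ≠ 0) (ho2 : 0 ≤ o (2 : K))
    {Q : G} (hQ : Q ≠ 0) (hQ2 : Q + Q ≠ 0) (hx : ξ Q ≠ 0) (hu : ξ (Q + Q) ≠ 0)
    (hupos : 0 < o (ξ (Q + Q))) : o (ξ Q) < o b := by
  obtain ⟨h40, ho4⟩ := walk2_four ho h20 ho2
  by_contra hcon
  rw [not_lt] at hcon
  have h1 : ξ Q ^ 2 - b ≠ 0 ∧ o (ξ Q ^ 2 - b) = o b := ho.sub_gt hb0 fun _ => by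
    rw [ho.sq hx]
    linear_combination (norm := (abel_nf; exact le_rfl)) hm + hcon + hcon
  obtain ⟨hq, -, hE⟩ := walk2_dbl_ord ho h hQ hQ2 hx hu (Or.inr h1.1)
  have hq' : o b ≤ o (4 * ξ Q ^ 2 + 4 * a * ξ Q + 4 * b) := by
    refine ho.ge_add (fun hne => ho.ge_add (fun _ => ?_) (fun _ => ?_) hne) (fun _ => ?_) hq
    · rw [ho.mul _ _ h40 (pow_ne_zero 2 hx), ho.sq hx]
      linear_combination (norm := (abel_nf; exact le_rfl)) hm + hcon + hcon + ho4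
    · rw [ho.mul _ _ ha0 hx, hoa, zero_add]
      exact hcon
    · rw [ho.mul _ _ h40 hb0]
      exact le_add_of_nonneg_left ho4
  rw [h1.2] at hE
  have : (0 : Γ) < 0 := by
    linear_combination (norm := (abel_nf; exact le_rfl)) hupos + hcon + hq' + hE
  exact lt_irrefl _ this

lemma walk2_base (ho : IsOrd o) (h : KLine ξ η a b) (ha0 : 4 * a ≠ 0) (hoa : o (4 * a) = 0)
    (hb0 : b ≠ 0) (h20 : (2 : K) ≠ 0) (ho2 : 0 ≤ o (2 : K))
    {P : G} (hP : P ≠ 0) (hP2 : P + P ≠ 0) (hy : ξ P ≠ 0) (hu : ξ (P + P) ≠ 0)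
    (hc : 0 < o (ξ P)) (hcm : o (ξ P) < o b) (hum : o (ξ (P + P)) < o b) :
    Tent (o b) (o (ξ P) + o (ξ P)) (o (ξ (P + P))) := by
  obtain ⟨h40, ho4⟩ := walk2_four ho h20 ho2
  have hax : o (4 * a * ξ P) = o (ξ P) := by rw [ho.mul _ _ ha0 hy, hoa, zero_add]
  have h1 : 4 * a * ξ P + (4 * ξ P ^ 2 + 4 * b) ≠ 0 ∧
      o (4 * a * ξ P + (4 * ξ P ^ 2 + 4 * b)) = o (4 * a * ξ P) := by
    refine ho.dom (mul_ne_zero ha0 hy) fun hne => ?_
    rw [hax]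
    refine ho.gt_add (fun _ => ?_) (fun _ => ?_) hne
    · rw [ho.mul _ _ h40 (pow_ne_zero 2 hy), ho.sq hy]
      linear_combination (norm := (abel_nf; exact le_rfl)) hc + ho4
    · rw [ho.mul _ _ h40 hb0]
      exact hcm.trans_le (le_add_of_nonneg_left ho4)
  have e1 : 4 * a * ξ P + (4 * ξ P ^ 2 + 4 * b) = 4 * ξ P ^ 2 + 4 * a * ξ P + 4 * b := by ring
  rw [e1, hax] at h1
  obtain ⟨-, hz, hE⟩ := walk2_dbl_ord ho h hP hP2 hy hu (Or.inl h1.1)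
  rw [h1.2] at hE
  have hsq : o (ξ P ^ 2) = o (ξ P) + o (ξ P) := ho.sq hy
  have hsq0 : ξ P ^ 2 ≠ 0 := pow_ne_zero 2 hy
  refine trop_dbl hE (fun hlt => ?_) (fun hlt => ?_) (fun heq => ?_) hum
  · rw [← hsq]
    exact (ho.sub_lt hsq0 (by rw [hsq]; exact hlt)).2
  · exact (ho.sub_gt hb0 (fun _ => by rw [hsq]; exact hlt)).2
  · exact ho.sub_ge (fun _ => by rw [hsq, heq]) (fun _ => le_rfl) hz

theorem walk2_aux (ho : IsOrd o) (h : KLine ξ η a b) (ha0 : 4 * a ≠ 0) (hoa : o (4 * a) = 0)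
    (hb0 : b ≠ 0) (hm : 0 < o b) (h20 : (2 : K) ≠ 0) (ho2 : 0 ≤ o (2 : K)) {p : ℕ}
    (hp : p.Prime) (hp2 : p ≠ 2)
    (P : G) (hP : P ≠ 0) (hpP : p • P = 0) (hpos : 0 < o (ξ P))
    (hmin : ∀ k : ℕ, k • P ≠ 0 → o (ξ P) ≤ o (ξ (k • P))) :
    p • o (ξ P) = o b + o b ∧ o (ξ P) < o b := by
  have : Fact p.Prime := ⟨hp⟩
  have hord : addOrderOf P = p := addOrderOf_eq_prime hpP hP
  have hnz : ∀ k : ℕ, ¬ p ∣ k → k • P ≠ 0 := fun k hk h0 =>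
    hk (hord ▸ addOrderOf_dvd_of_nsmul_eq_zero h0)
  have hp3 : 3 ≤ p := by have := hp.two_le; omega
  have hnd2 : ∀ k : ℕ, ¬ p ∣ k → ¬ p ∣ k + k := by
    intro k hk hd
    rw [← two_mul] at hd
    rcases (Nat.Prime.dvd_mul hp).mp hd with h1 | h1
    · have := Nat.le_of_dvd (by norm_num) h1
      omega
    · exact hk h1
  have e2 : ∀ k : ℕ, k • P + k • P = (k + k) • P := fun k => (add_nsmul P k k).symm
  have hx0 : ∀ k : ℕ, ¬ p ∣ k → ξ (k • P) ≠ 0 := fun k hk =>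
    xi_ne_zero h hb0 (hnz k hk) (by rw [e2]; exact hnz _ (hnd2 k hk))
  have hrpos : ∀ k : ℕ, ¬ p ∣ k → 0 < o (ξ (k • P)) := fun k hk =>
    hpos.trans_le (hmin k (hnz k hk))
  have hrlt : ∀ k : ℕ, ¬ p ∣ k → o (ξ (k • P)) < o b := fun k hk =>
    walk2_ord_lt ho h ha0 hoa hb0 hm h20 ho2 (hnz k hk) (by rw [e2]; exact hnz _ (hnd2 k hk))
      (hx0 k hk) (by rw [e2]; exact hx0 _ (hnd2 k hk)) (by rw [e2]; exact hrpos _ (hnd2 k hk))
  have hnd : ∀ k : ℕ, 0 < k → k < p → ¬ p ∣ k := fun k h0 h1 => Nat.not_dvd_of_pos_of_lt h0 h1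
  have h1P : (1 : ℕ) • P = P := one_nsmul P
  have hcm : o (ξ P) < o b := by
    have := hrlt 1 (hnd 1 one_pos (by omega))
    rwa [h1P] at this
  have hT2 : Tent (o b) (o (ξ P) + o (ξ P)) (o (ξ (P + P))) := by
    have e : P + P = (1 + 1) • P := by rw [← e2, h1P]
    have hn2 := hnd (1 + 1) (by omega) (by omega)
    exact walk2_base ho h ha0 hoa hb0 h20 ho2 hP (by rw [e]; exact hnz _ hn2)
      (by have := hx0 1 (hnd 1 one_pos (by omega)); rwa [h1P] at this)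
      (by rw [e]; exact hx0 _ hn2) hpos hcm (by rw [e]; exact hrlt _ hn2)
  have h2c : o (ξ P) + o (ξ P) ≠ o b := by
    rcases hT2 with h' | h'
    · exact h'.1.ne
    · exact h'.1.ne'
  have key : ∀ k : ℕ, k + 3 ≤ p → Tent (o b) ((k + 1) • o (ξ P)) (o (ξ ((k + 1) • P))) ∧
      Tent (o b) ((k + 2) • o (ξ P)) (o (ξ ((k + 2) • P))) := by
    intro k
    induction k with
    | zero =>
      intro _
      refine ⟨Or.inl ?_, ?_⟩
      · rw [zero_add, one_nsmul, one_nsmul]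
        exact ⟨hcm, rfl⟩
      · rw [zero_add, two_nsmul, two_nsmul]
        exact hT2
    | succ k ih =>
      intro hk
      obtain ⟨h1, h2⟩ := ih (by omega)
      refine ⟨h2, ?_⟩
      have eP : (k + 1 + 2) • P = (k + 2) • P + P := succ_nsmul P (k + 2)
      have eM : (k + 1) • P = (k + 2) • P - P := by
        rw [succ_nsmul P (k + 1), add_sub_cancel_right]
      have eP' : (k + 1 + 2) • o (ξ P) = (k + 2) • o (ξ P) + o (ξ P) := succ_nsmul _ (k + 2)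
      have eM' : (k + 1) • o (ξ P) = (k + 2) • o (ξ P) - o (ξ P) := by
        rw [succ_nsmul _ (k + 1), add_sub_cancel_right]
      have n1 := hnd (k + 1) (by omega) (by omega)
      have n2 := hnd (k + 2) (by omega) (by omega)
      have n3 := hnd (k + 1 + 2) (by omega) (by omega)
      rw [eM, eM'] at h1
      rw [eP, eP']
      refine walk_step ho h hb0 hP (hnz _ n2) (by rw [← eP]; exact hnz _ n3)
        (by rw [← eM]; exact hnz _ n1) (hx0 _ n2)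
        (by have := hx0 1 (hnd 1 one_pos (by omega)); rwa [h1P] at this)
        (by rw [← eP]; exact hx0 _ n3) (by rw [← eM]; exact hx0 _ n1) hpos (hmin _ (hnz _ n2))
        (by rw [← eP]; exact hmin _ (hnz _ n3)) (by rw [← eP]; exact hrlt _ n3) h2c ?_ h1 h2
      rw [← eM', succ_nsmul]
      exact le_add_of_nonneg_left (nsmul_nonneg hpos.le k)
  refine ⟨?_, hcm⟩
  obtain ⟨q, rfl⟩ : ∃ q, p = q + 3 := ⟨p - 3, by omega⟩
  have hfin := (key q le_rfl).2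
  have eneg : (q + 2) • P = -P := by
    rw [eq_neg_iff_add_eq_zero, ← succ_nsmul]
    exact hpP
  rw [eneg, h.neg] at hfin
  rcases hfin with ⟨-, h2⟩ | ⟨-, h2⟩
  · exfalso
    rw [succ_nsmul] at h2
    have h3 : (q + 1) • o (ξ P) = 0 := by
      linear_combination (norm := abel) -h2
    exact (nsmul_pos hpos (by omega)).ne' h3
  · rw [succ_nsmul]
    linear_combination (norm := abel) h2

end kl

section final

variable {G K : Type*} [AddCommGroup G] [Field K] {ξ η : G → K} {a b : K}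

/-- strong form of `walk2`: the generator is a multiple of `P` -/
theorem walk2_strong (A : ValuationSubring K) (h : KLine ξ η a b)
    (h4a : A.valuation (4 * a) = 1)
    (hb : A.valuation b < 1) (hb0 : b ≠ 0) (h20 : (2 : K) ≠ 0)
    {p : ℕ} (hp : p.Prime) (hp2 : p ≠ 2)
    (hint : ∀ Q : G, Q ≠ 0 → p • Q = 0 → ξ Q ∈ A) (P : G) (hP : P ≠ 0) (hpP : p • P = 0) :
    ∃ (k₀ k : ℕ), P = k • k₀ • P ∧ k₀ • P ≠ 0 ∧ p • k₀ • P = 0 ∧
      (A.valuation (ξ (k₀ • P)) = 1 ∨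
        (A.valuation (ξ (k₀ • P)) ^ p = A.valuation b ^ 2 ∧
          A.valuation b < A.valuation (ξ (k₀ • P)) ∧ A.valuation (ξ (k₀ • P)) < 1)) := by
  have : Fact p.Prime := ⟨hp⟩
  have hord : addOrderOf P = p := addOrderOf_eq_prime hpP hP
  have hp3 : 3 ≤ p := by have := hp.two_le; omega
  have hne : (Finset.Icc 1 (p - 1)).Nonempty := ⟨1, Finset.mem_Icc.mpr ⟨le_rfl, by omega⟩⟩
  obtain ⟨k₀, hk₀, hmin₀⟩ := Finset.exists_min_image (Finset.Icc 1 (p - 1))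
    (fun k => ordA A (ξ (k • P))) hne
  rw [Finset.mem_Icc] at hk₀
  have hnd₀ : ¬ p ∣ k₀ := Nat.not_dvd_of_pos_of_lt (by omega) (by omega)
  have hP₀ : k₀ • P ≠ 0 := fun h0 => hnd₀ (hord ▸ addOrderOf_dvd_of_nsmul_eq_zero h0)
  have hpP₀ : p • k₀ • P = 0 := by rw [smul_comm, hpP, smul_zero]
  have hord₀ : addOrderOf (k₀ • P) = p := addOrderOf_eq_prime hpP₀ hP₀
  obtain ⟨k, -, hk⟩ := Nat.exists_mul_mod_eq_one_of_coprime
    ((Nat.Prime.coprime_iff_not_dvd hp).mpr hnd₀).symm hp.one_lt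
  have hPk : P = k • k₀ • P := by
    rw [← mul_nsmul', mul_comm, ← mod_addOrderOf_nsmul, hord, hk, one_nsmul]
  refine ⟨k₀, k, hPk, hP₀, hpP₀, ?_⟩
  have hle : A.valuation (ξ (k₀ • P)) ≤ 1 := (A.valuation_le_one_iff _).mpr (hint _ hP₀ hpP₀)
  rcases hle.eq_or_lt with heq | hlt
  · exact Or.inl heq
  right
  have hP₀2 : k₀ • P + k₀ • P ≠ 0 := by
    rw [← two_nsmul]
    intro h0
    have h1 := addOrderOf_dvd_of_nsmul_eq_zero h0
    rw [hord₀] at h1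
    have := Nat.le_of_dvd (by norm_num) h1
    omega
  have hx0 : ξ (k₀ • P) ≠ 0 := xi_ne_zero h hb0 hP₀ hP₀2
  obtain ⟨ha0, hoa⟩ := ordA_eq_zero A h4a
  have ho2 : 0 ≤ ordA A (2 : K) := by
    rw [← (isOrd_ordA A).one, ordA_le_iff A one_ne_zero h20, map_one]
    have := core_val_int_le A 2
    simpa using this
  have hmin : ∀ j : ℕ, j • k₀ • P ≠ 0 → ordA A (ξ (k₀ • P)) ≤ ordA A (ξ (j • k₀ • P)) := by
    intro j hj
    have e : j • k₀ • P = ((k₀ * j) % p) • P := by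
      rw [← mul_nsmul', ← hord, mod_addOrderOf_nsmul, mul_comm]
    rw [e] at hj ⊢
    apply hmin₀
    rw [Finset.mem_Icc]
    have h1 : (k₀ * j) % p < p := Nat.mod_lt _ hp.pos
    have h2 : (k₀ * j) % p ≠ 0 := by
      intro h0
      rw [h0, zero_nsmul] at hj
      exact hj rfl
    omega
  obtain ⟨h1, h3⟩ := walk2_aux (isOrd_ordA A) h ha0 hoa hb0 (ordA_pos A hb0 hb) h20 ho2 hp hp2
    (k₀ • P) hP₀ hpP₀ (ordA_pos A hx0 hlt) hmin
  refine ⟨?_, (ordA_lt_iff A hx0 hb0).mp h3, hlt⟩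
  rw [← (isOrd_ordA A).pow hx0, ← (isOrd_ordA A).sq hb0,
    ordA_eq_iff A (pow_ne_zero _ hx0) (pow_ne_zero _ hb0), map_pow, map_pow] at h1
  exact h1

theorem walk2 (A : ValuationSubring K) (h : KLine ξ η a b) (h4a : A.valuation (4 * a) = 1)
    (hb : A.valuation b < 1) (hb0 : b ≠ 0) (h20 : (2 : K) ≠ 0)
    {p : ℕ} (hp : p.Prime) (hp2 : p ≠ 2)
    (hint : ∀ Q : G, Q ≠ 0 → p • Q = 0 → ξ Q ∈ A) (P : G) (hP : P ≠ 0) (hpP : p • P = 0) :
    ∃ (P₀ : G) (k : ℕ), P = k • P₀ ∧ P₀ ≠ 0 ∧ p • P₀ = 0 ∧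
      (A.valuation (ξ P₀) = 1 ∨
        (A.valuation (ξ P₀) ^ p = A.valuation b ^ 2 ∧ A.valuation b < A.valuation (ξ P₀) ∧
          A.valuation (ξ P₀) < 1)) := by
  obtain ⟨k₀, k, h1, h2, h3, h5⟩ := walk2_strong A h h4a hb hb0 h20 hp hp2 hint P hP hpP
  exact ⟨k₀ • P, k, h1, h2, h3, h5⟩

end final

end Fermat.Agent.S13
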